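/-
S55 / 31-FIRST-INEQ (helper27), Herbrand bookkeeping (Herbrand54.Pair vocabulary only).

* `cokerSES` : for `X →(α,β) A × B`, `π : A × B → C` onto with kernel the image of `(α,β)`,
  `β` onto and `(α,β)` injective, the sequence `0 → ker β → A → C → 0` is short exact.
  [`X = Lˣ`, `A = J_S × ℤ[T∖S]`, `B = ℤ[primes outside T]`, `C = C_S(L)`, `ker β = E_T`:
  `C_S(L) ≅ (J_S × ℤ[T∖S]) / E_T` once `Cl(𝓞_{L,T}) = 1`.]
* `q_of_ses`, `first_ineq_abstract` : the resulting Herbrand quotient.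
-/
import Mathlib
import Fermat.Agent.S55.Herbrand54
import Fermat.Agent.S55.SUnit1.HomSES

set_option autoImplicit false

namespace Fermat.Agent.S55.FirstIneq27.Abstract

open Fermat.Agent.S55.Herbrand54 Fermat.Agent.S55.SUnit1.HomSES

variable {X A B C : Type*} [AddCommGroup X] [AddCommGroup A] [AddCommGroup B] [AddCommGroup C]
variable {PX : Pair X} {PA : Pair A} {PB : Pair B} {PC : Pair C}

/-- the composite `ker β → X → A` as a morphism of pairs -/
def kerHom (α : Pair.Hom PX PA) (β : Pair.Hom PX PB) : Pair.Hom (kerPair β) PA where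
  toFun := α.toFun.comp β.toFun.ker.subtype
  comm_f x := α.comm_f x
  comm_g x := α.comm_g x

/-- `A → A × B → C` as a morphism of pairs -/
def inlHom (π : Pair.Hom (PA.prod PB) PC) : Pair.Hom PA PC where
  toFun := π.toFun.comp (AddMonoidHom.inl A B)
  comm_f x := by
    have h := π.comm_f (x, 0)
    have h1 : (PA.prod PB).f (x, 0) = (PA.f x, 0) := by
      change (PA.f x, PB.f 0) = (PA.f x, 0)
      rw [map_zero]
    rw [h1] at h
    exact h
  comm_g x := by
    have h := π.comm_g (x, 0)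
    have h1 : (PA.prod PB).g (x, 0) = (PA.g x, 0) := by
      change (PA.g x, PB.g 0) = (PA.g x, 0)
      rw [map_zero]
    rw [h1] at h
    exact h

/-- **The cokernel sequence.**  `0 → ker β → A → C → 0`. -/
def cokerSES (α : Pair.Hom PX PA) (β : Pair.Hom PX PB) (π : Pair.Hom (PA.prod PB) PC)
    (hπ : Function.Surjective π.toFun)
    (hker : ∀ a b, π.toFun (a, b) = 0 ↔ ∃ x, α.toFun x = a ∧ β.toFun x = b)
    (hβ : Function.Surjective β.toFun)
    (hinj : ∀ x, α.toFun x = 0 → β.toFun x = 0 → x = 0) :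
    Pair.SES (kerPair β) PA PC where
  i := kerHom α β
  p := inlHom π
  inj := by
    intro x y hxy
    have h1 : α.toFun ((x : X) - (y : X)) = 0 := by
      rw [map_sub, sub_eq_zero]
      exact hxy
    have h2 : β.toFun ((x : X) - (y : X)) = 0 := by
      rw [map_sub, sub_eq_zero]
      exact x.2.trans y.2.symm
    exact Subtype.ext (sub_eq_zero.mp (hinj _ h1 h2))
  surj := by
    intro c
    obtain ⟨⟨a, b⟩, rfl⟩ := hπ c
    obtain ⟨x, rfl⟩ := hβ b
    refine ⟨a - α.toFun x, ?_⟩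
    have h0 : π.toFun (α.toFun x, β.toFun x) = 0 := (hker _ _).mpr ⟨x, rfl, rfl⟩
    have h1 : ((a, β.toFun x) : A × B) = (a - α.toFun x, 0) + (α.toFun x, β.toFun x) := by
      rw [Prod.mk_add_mk, sub_add_cancel, zero_add]
    rw [h1, map_add, h0, add_zero]
    rfl
  exact := by
    intro a
    constructor
    · intro ha
      obtain ⟨x, hx, hx0⟩ := (hker a 0).mp ha
      exact ⟨⟨x, hx0⟩, hx⟩
    · rintro ⟨x, rfl⟩
      exact (hker _ _).mpr ⟨x, rfl, x.2⟩

/-- a defined Herbrand quotient is nonzero -/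
theorem q_ne_zero {P : Pair A} (h : P.IsDefined) : P.q ≠ 0 := by
  obtain ⟨h0, h1⟩ := h
  unfold Pair.q
  have n0 : (Nat.card P.H0 : ℚ) ≠ 0 := Nat.cast_ne_zero.2 Nat.card_pos.ne'
  have n1 : (Nat.card P.H1 : ℚ) ≠ 0 := Nat.cast_ne_zero.2 Nat.card_pos.ne'
  exact div_ne_zero n0 n1

/-- Herbrand quotient of the right end of a short exact sequence. -/
theorem q_of_ses {E : Type*} [AddCommGroup E] {PE : Pair E} (S : Pair.SES PE PA PC)
    (hE : PE.IsDefined) (hA : PA.IsDefined) {n : ℚ} (hrel : PA.q = n * PE.q) :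
    PC.IsDefined ∧ PC.q = n := by
  have hC := S.isDefined_right hE hA
  refine ⟨hC, ?_⟩
  have h := S.q_mul hE hC
  rw [hrel, mul_comm n] at h
  exact (mul_left_cancel₀ (q_ne_zero hE) h).symm

/-- **Abstract first inequality.**  `q(C) = n` as soon as `q(A) = n · q(ker β)`. -/
theorem first_ineq_abstract (α : Pair.Hom PX PA) (β : Pair.Hom PX PB)
    (π : Pair.Hom (PA.prod PB) PC) (hπ : Function.Surjective π.toFun)
    (hker : ∀ a b, π.toFun (a, b) = 0 ↔ ∃ x, α.toFun x = a ∧ β.toFun x = b)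
    (hβ : Function.Surjective β.toFun)
    (hinj : ∀ x, α.toFun x = 0 → β.toFun x = 0 → x = 0)
    (hE : (kerPair β).IsDefined) (hA : PA.IsDefined) {n : ℚ}
    (hrel : PA.q = n * (kerPair β).q) :
    PC.IsDefined ∧ PC.q = n :=
  q_of_ses (cokerSES α β π hπ hker hβ hinj) hE hA hrel

end Fermat.Agent.S55.FirstIneq27.Abstract
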