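/-
S55 / 31-FIRST-INEQ (helper27), MAIN (generic form): the first inequality for a cyclic layer
`N ⊴ H ≤ G` of a class module `C` presented as a cokernel `X → A × B → C → 0`.

`X = Lx L`, `A = JS S L × (ideal part supported in T ∖ S)`, `B = ideal part outside T`,
`C = C_S(L)`; `G = Gal(L/ℚ)`.  Output: the literal shape of `Adapt77.HcycGlue.FirstIneqOut`
(`layerPair C H N g` is defined with Herbrand quotient `n`), from

* exactness of `X → A × B → C → 0` and injectivity of `X → A × B` (elementwise, over `G`),
* Hilbert 90 for `X` on `N` (elementwise cocycle form),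
* the class-group step for the layer: `X^N → B^N` is onto,
* the Herbrand quotients of `A^N` and of `ker (X^N → B^N)` (= `T`-units of `L^N`).
-/
import Mathlib
import Fermat.Agent.S55.Adapt77.HcycGlue
import Fermat.Agent.S55.FirstIneq27.Abstract

set_option autoImplicit false

namespace Fermat.Agent.S55.FirstIneq27.Layer

open CategoryTheory Rep
open Fermat.Agent.S55.Herbrand54 Fermat.Agent.S55.HerbrandCyclic54 Fermat.Agent.S55.HerbrandHcyc54
open Fermat.Agent.S55.SUnit1.HomSES Fermat.Agent.S55.Adapt77.HcycGlue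
open Fermat.Agent.S55.FirstIneq27.Abstract

universe u

variable {k G : Type u} [CommRing k] [Group G]

section Hom

variable {M M' : Rep.{u, u, u} k G} (φ : M ⟶ M') (H : Subgroup G) (N : Subgroup H) [N.Normal]

/-- the morphism induced on the layers `(Res_H M)^N → (Res_H M')^N` -/
noncomputable def layerRepHom : layer M H N ⟶ layer M' H N :=
  (quotientToInvariantsFunctor k N).map ((Rep.resFunctor H.subtype).map φ)

theorem layerRepHom_val (x : (layer M H N).V) :
    ((layerRepHom φ H N).hom x).1 = φ.hom x.1 := rfl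

theorem layer_fixed (x : (layer M H N).V) (n : N) : M.ρ ((n : H) : G) x.1 = x.1 := x.2 n

theorem layer_rho_val (x : (layer M H N).V) (h : H) :
    ((layer M H N).ρ (QuotientGroup.mk h) x).1 = M.ρ (h : G) x.1 := rfl

/-- an `N`-invariant vector as an element of the layer -/
def layerMk (x : M.V) (hx : ∀ n : N, M.ρ ((n : H) : G) x = x) : (layer M H N).V := ⟨x, hx⟩

theorem layerMk_val (x : M.V) (hx : ∀ n : N, M.ρ ((n : H) : G) x = x) :
    (layerMk H N x hx).1 = x := rfl

variable [Fintype (H ⧸ N)] (g : H ⧸ N)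

/-- the morphism of Herbrand pairs induced on the layers -/
noncomputable def layerHom : Pair.Hom (layerPair M H N g) (layerPair M' H N g) :=
  homOfEquivariant (repRhoM (layer M H N)) (repRhoM (layer M' H N)) g
    ((layerRepHom φ H N).hom.toLinearMap.toAddMonoidHom)
    (fun τ x => Rep.hom_comm_apply (layerRepHom φ H N) τ x)

theorem layerHom_val (x : (layer M H N).V) :
    ((layerHom φ H N g).toFun x).1 = φ.hom x.1 := rfl

end Hom

section Main

variable {X A B C : Rep.{u, u, u} k G} (α : X ⟶ A) (β : X ⟶ B) (a : A ⟶ C) (b : B ⟶ C)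
variable (H : Subgroup G) (N : Subgroup H) [N.Normal] [Fintype (H ⧸ N)] (g : H ⧸ N)

/-- `(u, v) ↦ a u + b v` on the layers, as a morphism of Herbrand pairs -/
noncomputable def sumHom :
    Pair.Hom ((layerPair A H N g).prod (layerPair B H N g)) (layerPair C H N g) where
  toFun := ((layerHom a H N g).toFun.comp (AddMonoidHom.fst _ _)) +
    ((layerHom b H N g).toFun.comp (AddMonoidHom.snd _ _))
  comm_f x := by
    change (layerHom a H N g).toFun ((layerPair A H N g).f x.1) +
        (layerHom b H N g).toFun ((layerPair B H N g).f x.2) =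
      (layerPair C H N g).f ((layerHom a H N g).toFun x.1 + (layerHom b H N g).toFun x.2)
    rw [(layerHom a H N g).comm_f, (layerHom b H N g).comm_f, map_add]
  comm_g x := by
    change (layerHom a H N g).toFun ((layerPair A H N g).g x.1) +
        (layerHom b H N g).toFun ((layerPair B H N g).g x.2) =
      (layerPair C H N g).g ((layerHom a H N g).toFun x.1 + (layerHom b H N g).toFun x.2)
    rw [(layerHom a H N g).comm_g, (layerHom b H N g).comm_g, map_add]

theorem sumHom_val (x : (layer A H N).V × (layer B H N).V) :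
    ((sumHom a b H N g).toFun x).1 = a.hom x.1.1 + b.hom x.2.1 := rfl

/-- **Main theorem of 31, generic form.**  The first inequality for the layer `N ⊴ H`. -/
theorem layer_first_ineq
    (hex : ∀ (u : A.V) (v : B.V), a.hom u + b.hom v = 0 ↔ ∃ x : X.V, α.hom x = u ∧ β.hom x = v)
    (hsurj : ∀ c : C.V, ∃ (u : A.V) (v : B.V), a.hom u + b.hom v = c)
    (hinj : ∀ x : X.V, α.hom x = 0 → β.hom x = 0 → x = 0)
    (hH90 : ∀ z : N → X.V, (∀ n m : N, z (n * m) = X.ρ ((n : H) : G) (z m) + z n) →
      ∃ y : X.V, ∀ n : N, X.ρ ((n : H) : G) y - y = z n)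
    (hcl : ∀ v : B.V, (∀ n : N, B.ρ ((n : H) : G) v = v) →
      ∃ x : X.V, (∀ n : N, X.ρ ((n : H) : G) x = x) ∧ β.hom x = v)
    (hA : (layerPair A H N g).IsDefined)
    (hE : (kerPair (layerHom β H N g)).IsDefined)
    {n : ℚ} (hrel : (layerPair A H N g).q = n * (kerPair (layerHom β H N g)).q) :
    (layerPair C H N g).IsDefined ∧ (layerPair C H N g).q = n := by
  -- invariance of the unique preimage
  have hfix : ∀ (x : X.V) (u : A.V) (v : B.V), α.hom x = u → β.hom x = v →
      (∀ n : N, A.ρ ((n : H) : G) u = u) → (∀ n : N, B.ρ ((n : H) : G) v = v) →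
      ∀ n : N, X.ρ ((n : H) : G) x = x := by
    intro x u v hu hv hun hvn n
    have h1 : α.hom (X.ρ ((n : H) : G) x - x) = 0 := by
      rw [map_sub, Rep.hom_comm_apply, hu, hun n, sub_self]
    have h2 : β.hom (X.ρ ((n : H) : G) x - x) = 0 := by
      rw [map_sub, Rep.hom_comm_apply, hv, hvn n, sub_self]
    exact sub_eq_zero.mp (hinj _ h1 h2)
  refine first_ineq_abstract (layerHom α H N g) (layerHom β H N g) (sumHom a b H N g)
    ?_ ?_ ?_ ?_ hE hA hrel
  · -- surjectivity on the layers (Hilbert 90)
    intro c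
    obtain ⟨u, v, huv⟩ := hsurj c.1
    -- the cocycle `n ↦ (n u - u, n v - v)` comes from `X`
    have hz : ∀ n : N, ∃ x : X.V, α.hom x = A.ρ ((n : H) : G) u - u ∧
        β.hom x = B.ρ ((n : H) : G) v - v := by
      intro n
      apply (hex _ _).mp
      rw [map_sub, map_sub, Rep.hom_comm_apply, Rep.hom_comm_apply]
      have : a.hom u + b.hom v = c.1 := huv
      have hc : C.ρ ((n : H) : G) c.1 = c.1 := c.2 n
      calc C.ρ ((n : H) : G) (a.hom u) - a.hom u + (C.ρ ((n : H) : G) (b.hom v) - b.hom v)
          = C.ρ ((n : H) : G) (a.hom u + b.hom v) - (a.hom u + b.hom v) := by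
            rw [map_add]; abel
        _ = 0 := by rw [this, hc, sub_self]
    choose z hzα hzβ using hz
    have hcoc : ∀ n m : N, z (n * m) = X.ρ ((n : H) : G) (z m) + z n := by
      intro n m
      have h1 : α.hom (z (n * m) - (X.ρ ((n : H) : G) (z m) + z n)) = 0 := by
        rw [map_sub, map_add, Rep.hom_comm_apply, hzα, hzα, hzα]
        have : (((n * m : N) : H) : G) = ((n : H) : G) * ((m : H) : G) := rfl
        rw [this, map_mul, map_sub]
        simp only [Module.End.mul_apply]
        abel
      have h2 : β.hom (z (n * m) - (X.ρ ((n : H) : G) (z m) + z n)) = 0 := by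
        rw [map_sub, map_add, Rep.hom_comm_apply, hzβ, hzβ, hzβ]
        have : (((n * m : N) : H) : G) = ((n : H) : G) * ((m : H) : G) := rfl
        rw [this, map_mul, map_sub]
        simp only [Module.End.mul_apply]
        abel
      exact sub_eq_zero.mp (hinj _ h1 h2)
    obtain ⟨y, hy⟩ := hH90 z hcoc
    have hu' : ∀ n : N, A.ρ ((n : H) : G) (u - α.hom y) = u - α.hom y := by
      intro n
      have := hzα n
      rw [← hy n, map_sub, Rep.hom_comm_apply] at this
      rw [map_sub]
      have h3 : A.ρ ((n : H) : G) u - A.ρ ((n : H) : G) (α.hom y) - (u - α.hom y) = 0 := by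
        have h4 : A.ρ ((n : H) : G) u - A.ρ ((n : H) : G) (α.hom y) - (u - α.hom y) =
            (A.ρ ((n : H) : G) u - u) - (A.ρ ((n : H) : G) (α.hom y) - α.hom y) := by abel
        rw [h4, this, sub_self]
      exact sub_eq_zero.mp h3
    have hv' : ∀ n : N, B.ρ ((n : H) : G) (v - β.hom y) = v - β.hom y := by
      intro n
      have := hzβ n
      rw [← hy n, map_sub, Rep.hom_comm_apply] at this
      rw [map_sub]
      have h3 : B.ρ ((n : H) : G) v - B.ρ ((n : H) : G) (β.hom y) - (v - β.hom y) = 0 := by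
        have h4 : B.ρ ((n : H) : G) v - B.ρ ((n : H) : G) (β.hom y) - (v - β.hom y) =
            (B.ρ ((n : H) : G) v - v) - (B.ρ ((n : H) : G) (β.hom y) - β.hom y) := by abel
        rw [h4, this, sub_self]
      exact sub_eq_zero.mp h3
    refine ⟨(layerMk H N (u - α.hom y) hu', layerMk H N (v - β.hom y) hv'), ?_⟩
    apply Subtype.ext
    rw [sumHom_val]
    show a.hom (u - α.hom y) + b.hom (v - β.hom y) = c.1
    have h0 : a.hom (α.hom y) + b.hom (β.hom y) = 0 := (hex _ _).mpr ⟨y, rfl, rfl⟩
    rw [map_sub, map_sub, ← huv]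
    have : a.hom u - a.hom (α.hom y) + (b.hom v - b.hom (β.hom y)) =
        a.hom u + b.hom v - (a.hom (α.hom y) + b.hom (β.hom y)) := by abel
    rw [this, h0, sub_zero]
  · -- exactness on the layers
    intro u v
    constructor
    · intro h
      have h0 : a.hom u.1 + b.hom v.1 = 0 := by
        have := congrArg Subtype.val h
        rw [sumHom_val] at this
        exact this
      obtain ⟨x, hxu, hxv⟩ := (hex _ _).mp h0
      refine ⟨layerMk H N x (hfix x u.1 v.1 hxu hxv u.2 v.2), ?_, ?_⟩
      · exact Subtype.ext hxu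
      · exact Subtype.ext hxv
    · rintro ⟨x, rfl, rfl⟩
      apply Subtype.ext
      rw [sumHom_val]
      exact (hex _ _).mpr ⟨x.1, rfl, rfl⟩
  · -- the class-group step
    intro v
    obtain ⟨x, hx, hxv⟩ := hcl v.1 v.2
    exact ⟨layerMk H N x hx, Subtype.ext hxv⟩
  · -- injectivity
    intro x h1 h2
    apply Subtype.ext
    exact hinj x.1 (congrArg Subtype.val h1) (congrArg Subtype.val h2)

end Main

end Fermat.Agent.S55.FirstIneq27.Layer
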