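/-
S55 / 31-FIRST-INEQ (helper27), MAIN part 1: generic bookkeeping for helper44's direct sums
`dsRep` of representations: restriction to / extension by zero from a sub-family cut out by a
predicate, binary products of representations, and the elementwise decomposition
`w = ext_P (res_P w) + ext_{¬P} (res_{¬P} w)`.
-/
import Mathlib
import Fermat.Agent.S55.IdeleVal44.SIdele

set_option autoImplicit false

namespace Fermat.Agent.S55.FirstIneq27.Split

open CategoryTheory
open Fermat.Agent.S55.IdeleVal44
open scoped DirectSum

/-- an additive map between arbitrary `ℤ`-modules is `ℤ`-linear (no assumption that the module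
structures are the canonical ones) -/
def linOfAdd {M M₂ : Type*} [AddCommGroup M] [AddCommGroup M₂] [Module ℤ M] [Module ℤ M₂]
    (f : M →+ M₂) : M →ₗ[ℤ] M₂ where
  toFun := f
  map_add' := map_add f
  map_smul' n x := by
    have := map_intCast_smul f ℤ ℤ n x
    simpa using this

@[simp] theorem linOfAdd_apply {M M₂ : Type*} [AddCommGroup M] [AddCommGroup M₂] [Module ℤ M]
    [Module ℤ M₂] (f : M →+ M₂) (x : M) : linOfAdd f x = f x := rfl

/-- a morphism of `ℤ`-representations from an equivariant additive map (all instances explicit: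
for `k = ℤ` instance synthesis would pick the canonical `ℤ`-module structure) -/
noncomputable def homOfAdd {G : Type} [Group G] (X Y : Rep ℤ G) (f : X.V →+ Y.V)
    (hf : ∀ (g : G) (x : X.V), f (X.ρ g x) = Y.ρ g (f x)) : X ⟶ Y :=
  ConcreteCategory.ofHom (C := Rep ℤ G) (X := X) (Y := Y)
    (@Representation.IntertwiningMap.mk ℤ G X.V Y.V _ _ _ _ X.hV2 Y.hV2 X.ρ Y.ρ
      (@linOfAdd X.V Y.V _ _ X.hV2 Y.hV2 f) (fun g => DFunLike.ext _ _ fun v => hf g v))

theorem homOfAdd_apply {G : Type} [Group G] (X Y : Rep ℤ G) (f : X.V →+ Y.V)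
    (hf : ∀ (g : G) (x : X.V), f (X.ρ g x) = Y.ρ g (f x)) (x : X.V) :
    (homOfAdd X Y f hf).hom x = f x := rfl

/-- the additive map underlying a morphism of `ℤ`-representations -/
def addOfHom {G : Type} [Group G] {X Y : Rep ℤ G} (f : X ⟶ Y) : X.V →+ Y.V where
  toFun := f.hom
  map_zero' := map_zero f.hom
  map_add' := map_add f.hom

@[simp] theorem addOfHom_apply {G : Type} [Group G] {X Y : Rep ℤ G} (f : X ⟶ Y) (x : X.V) :
    addOfHom f x = f.hom x := rfl

/-! ### sub-families of a direct sum of representations -/

section Sub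

variable {G : Type} [Group G] {ι : Type} (A : ι → Rep ℤ G) (P : ι → Prop)

/-- the sub-family on the indices satisfying `P` -/
abbrev subFam : {i // P i} → Rep ℤ G := fun i => A i.1

open Classical in
/-- restriction of a finitely supported family to the indices satisfying `P` -/
noncomputable def resAdd : dsRep A →+ dsRep (subFam A P) where
  toFun x := dsRep.ofDS (subFam A P) (DFinsupp.subtypeDomain P (dsRep.toDS A x))
  map_zero' := by
    apply dsRep.ext
    intro i
    rfl
  map_add' x y := by
    apply dsRep.ext
    intro i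
    rfl

theorem resAdd_apply (x : dsRep A) (i : {i // P i}) :
    dsRep.toDS (subFam A P) (resAdd A P x) i = dsRep.toDS A x i.1 := rfl

/-- restriction to a sub-family, as a morphism of representations -/
noncomputable def res : dsRep A ⟶ dsRep (subFam A P) :=
  homOfAdd (dsRep A) (dsRep (subFam A P)) (resAdd A P) (by
    intro g x
    apply dsRep.ext
    intro i
    rfl)

theorem res_apply (x : dsRep A) (i : {i // P i}) :
    dsRep.toDS (subFam A P) ((res A P).hom x) i = dsRep.toDS A x i.1 := rfl

open Classical in
/-- extension by zero of a finitely supported family on the indices satisfying `P` -/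
noncomputable def extFun (v : ⨁ i : {i // P i}, (A i.1)) : ⨁ i, (A i) :=
  DFinsupp.mk (v.support.map (Function.Embedding.subtype P))
    (fun i => if h : P i.1 then v ⟨i.1, h⟩ else 0)

open Classical in
theorem extFun_apply (v : ⨁ i : {i // P i}, (A i.1)) (i : ι) :
    extFun A P v i = if h : P i then v ⟨i, h⟩ else 0 := by
  rw [extFun, DFinsupp.mk_apply]
  split_ifs with h1 h2 h2
  · rfl
  · rfl
  · have : (⟨i, h2⟩ : {i // P i}) ∉ v.support := by
      intro hm
      exact h1 (Finset.mem_map.mpr ⟨⟨i, h2⟩, hm, rfl⟩)
    exact (DFinsupp.notMem_support_iff.mp this).symm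
  · rfl

theorem extFun_apply_pos (v : ⨁ i : {i // P i}, (A i.1)) (i : ι) (h : P i) :
    extFun A P v i = v ⟨i, h⟩ := by
  classical
  rw [extFun_apply, dif_pos h]

theorem extFun_apply_neg (v : ⨁ i : {i // P i}, (A i.1)) (i : ι) (h : ¬ P i) :
    extFun A P v i = 0 := by
  classical
  rw [extFun_apply, dif_neg h]

/-- extension by zero, additive -/
noncomputable def extAdd : dsRep (subFam A P) →+ dsRep A where
  toFun v := dsRep.ofDS A (extFun A P (dsRep.toDS (subFam A P) v))
  map_zero' := by
    classical
    apply dsRep.ext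
    intro i
    show extFun A P _ i = 0
    rw [extFun_apply]
    split_ifs
    · rfl
    · rfl
  map_add' x y := by
    classical
    apply dsRep.ext
    intro i
    show extFun A P _ i = extFun A P _ i + extFun A P _ i
    rw [extFun_apply, extFun_apply, extFun_apply]
    split_ifs
    · rfl
    · exact (add_zero _).symm

theorem extAdd_apply_pos (v : dsRep (subFam A P)) (i : ι) (h : P i) :
    dsRep.toDS A (extAdd A P v) i = dsRep.toDS (subFam A P) v ⟨i, h⟩ :=
  extFun_apply_pos A P _ i h

theorem extAdd_apply_neg (v : dsRep (subFam A P)) (i : ι) (h : ¬ P i) :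
    dsRep.toDS A (extAdd A P v) i = 0 :=
  extFun_apply_neg A P _ i h

/-- extension by zero, as a morphism of representations -/
noncomputable def ext : dsRep (subFam A P) ⟶ dsRep A :=
  homOfAdd (dsRep (subFam A P)) (dsRep A) (extAdd A P) (by
    intro g v
    apply dsRep.ext
    intro i
    rw [dsRep.ρ_apply]
    by_cases h : P i
    · rw [extAdd_apply_pos A P _ i h, extAdd_apply_pos A P _ i h, dsRep.ρ_apply]
    · rw [extAdd_apply_neg A P _ i h, extAdd_apply_neg A P _ i h, map_zero])

theorem ext_apply_pos (v : dsRep (subFam A P)) (i : ι) (h : P i) :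
    dsRep.toDS A ((ext A P).hom v) i = dsRep.toDS (subFam A P) v ⟨i, h⟩ :=
  extAdd_apply_pos A P v i h

theorem ext_apply_neg (v : dsRep (subFam A P)) (i : ι) (h : ¬ P i) :
    dsRep.toDS A ((ext A P).hom v) i = 0 :=
  extAdd_apply_neg A P v i h

theorem res_ext (v : dsRep (subFam A P)) : (res A P).hom ((ext A P).hom v) = v := by
  apply dsRep.ext
  intro i
  rw [res_apply, ext_apply_pos A P v i.1 i.2]

theorem res_not_ext (v : dsRep (subFam A P)) :
    (res A (fun i => ¬ P i)).hom ((ext A P).hom v) = 0 := by
  apply dsRep.ext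
  intro i
  rw [res_apply, dsRep.toDS_zero]
  by_cases h : P i.1
  · exact absurd h i.2
  · exact ext_apply_neg A P v i.1 h

theorem res_ext_not (v : dsRep (subFam A (fun i => ¬ P i))) :
    (res A P).hom ((ext A (fun i => ¬ P i)).hom v) = 0 := by
  apply dsRep.ext
  intro i
  rw [res_apply, dsRep.toDS_zero]
  exact ext_apply_neg A (fun i => ¬ P i) v i.1 (not_not.mpr i.2)

/-- every family is the sum of its parts on `P` and on `¬ P` -/
theorem ext_res_add (w : dsRep A) :
    (ext A P).hom ((res A P).hom w) +
      (ext A (fun i => ¬ P i)).hom ((res A (fun i => ¬ P i)).hom w) = w := by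
  apply dsRep.ext
  intro i
  rw [dsRep.toDS_add]
  by_cases h : P i
  · rw [ext_apply_pos A P _ i h, ext_apply_neg A (fun i => ¬ P i) _ i (not_not.mpr h), res_apply,
      add_zero]
  · rw [ext_apply_neg A P _ i h, ext_apply_pos A (fun i => ¬ P i) _ i h, res_apply, zero_add]

end Sub

end Fermat.Agent.S55.FirstIneq27.Split
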