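/-
S55 / 31-FIRST-INEQ (helper27), MAIN part 2: binary products of `ℤ`-representations and the
Herbrand pairs of the layers of a product / of a finite direct sum:
`layerPair (A × B) ≅ layerPair A × layerPair B`, `layerPair (⨁ᵢ Aᵢ) ≅ ∏ᵢ layerPair Aᵢ`.
-/
import Mathlib
import Fermat.Agent.S55.FirstIneq27.Split
import Fermat.Agent.S55.FirstIneq27.Layer

set_option autoImplicit false

namespace Fermat.Agent.S55.FirstIneq27.LayerProd

open CategoryTheory
open Fermat.Agent.S55.IdeleVal44
open Fermat.Agent.S55.Herbrand54 Fermat.Agent.S55.HerbrandCyclic54 Fermat.Agent.S55.HerbrandHcyc54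
open Fermat.Agent.S55.SUnit1.HomSES Fermat.Agent.S55.Adapt77.HcycGlue
open Fermat.Agent.S55.FirstIneq27.Split Fermat.Agent.S55.FirstIneq27.Layer
open scoped DirectSum

variable {G : Type} [Group G]

/-! ### binary products -/

section Prod

variable (A B : Rep ℤ G)

/-- the product of two `ℤ`-representations -/
noncomputable def prodRep : Rep ℤ G :=
  @Rep.of ℤ G _ _ (A.V × B.V) _ (@Prod.instModule ℤ A.V B.V _ _ _ A.hV2 B.hV2)
    (@Representation.prod ℤ G A.V B.V _ _ _ A.hV2 _ B.hV2 A.ρ B.ρ)

/-- elements of the product are pairs -/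
def prodRep.toProd (x : prodRep A B) : A.V × B.V := x

/-- pairs are elements of the product -/
def prodRep.ofProd (x : A.V × B.V) : prodRep A B := x

theorem prodRep.ρ_apply (g : G) (x : prodRep A B) :
    prodRep.toProd A B ((prodRep A B).ρ g x) =
      (A.ρ g (prodRep.toProd A B x).1, B.ρ g (prodRep.toProd A B x).2) := rfl

variable {A B}
variable {X C : Rep ℤ G}

/-- `x ↦ (f x, g x)` -/
noncomputable def prodLift (f : X ⟶ A) (g : X ⟶ B) : X ⟶ prodRep A B :=
  homOfAdd X (prodRep A B)
    (AddMonoidHom.prod (addOfHom f) (addOfHom g))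
    (fun σ x => Prod.ext (Rep.hom_comm_apply f σ x) (Rep.hom_comm_apply g σ x))

theorem prodLift_apply (f : X ⟶ A) (g : X ⟶ B) (x : X.V) :
    prodRep.toProd A B ((prodLift f g).hom x) = (f.hom x, g.hom x) := rfl

/-- `(u, w) ↦ f u + g w` -/
noncomputable def prodDesc (f : A ⟶ C) (g : B ⟶ C) : prodRep A B ⟶ C :=
  homOfAdd (prodRep A B) C
    (AddMonoidHom.coprod (addOfHom f) (addOfHom g))
    (fun σ x => by
      show f.hom (A.ρ σ x.1) + g.hom (B.ρ σ x.2) = C.ρ σ (f.hom x.1 + g.hom x.2)
      rw [Rep.hom_comm_apply, Rep.hom_comm_apply, map_add])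

theorem prodDesc_apply (f : A ⟶ C) (g : B ⟶ C) (x : prodRep A B) :
    (prodDesc f g).hom x =
      f.hom (prodRep.toProd A B x).1 + g.hom (prodRep.toProd A B x).2 := rfl

end Prod

/-! ### the layers of a product -/

section LayerProd

variable (A B : Rep ℤ G) (H : Subgroup G) (N : Subgroup H) [N.Normal]

/-- `(A × B)^N = A^N × B^N` -/
noncomputable def layerProdEquiv :
    (layer (prodRep A B) H N).V ≃+ (layer A H N).V × (layer B H N).V where
  toFun x := (layerMk H N (prodRep.toProd A B x.1).1 (fun n => congrArg Prod.fst (x.2 n)),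
    layerMk H N (prodRep.toProd A B x.1).2 (fun n => congrArg Prod.snd (x.2 n)))
  invFun y := layerMk H N (prodRep.ofProd A B (y.1.1, y.2.1))
    (fun n => Prod.ext (y.1.2 n) (y.2.2 n))
  left_inv x := rfl
  right_inv y := rfl
  map_add' x y := rfl

theorem layerProdEquiv_rho (τ : H ⧸ N) (x : (layer (prodRep A B) H N).V) :
    layerProdEquiv A B H N ((layer (prodRep A B) H N).ρ τ x) =
      ((layer A H N).ρ τ (layerProdEquiv A B H N x).1,
        (layer B H N).ρ τ (layerProdEquiv A B H N x).2) := by
  obtain ⟨h, rfl⟩ := QuotientGroup.mk_surjective τ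
  rfl

variable [Fintype (H ⧸ N)] (g : H ⧸ N)

/-- the Herbrand pair of the layer of a product is the product of the Herbrand pairs -/
noncomputable def layerPairProdIso :
    Pair.Iso (layerPair (prodRep A B) H N g) ((layerPair A H N g).prod (layerPair B H N g)) where
  e := layerProdEquiv A B H N
  comm_f x := by
    change layerProdEquiv A B H N ((layer (prodRep A B) H N).ρ g x - x) = _
    rw [map_sub, layerProdEquiv_rho]
    rfl
  comm_g x := by
    change layerProdEquiv A B H N (normHom (repRhoM (layer (prodRep A B) H N)) x) =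
      (normHom (repRhoM (layer A H N)) (layerProdEquiv A B H N x).1,
        normHom (repRhoM (layer B H N)) (layerProdEquiv A B H N x).2)
    rw [HerbrandCyclic54.normHom_apply, HerbrandCyclic54.normHom_apply,
      HerbrandCyclic54.normHom_apply, map_sum]
    apply Prod.ext
    · rw [Prod.fst_sum]
      exact Finset.sum_congr rfl fun τ _ => congrArg Prod.fst (layerProdEquiv_rho A B H N τ x)
    · rw [Prod.snd_sum]
      exact Finset.sum_congr rfl fun τ _ => congrArg Prod.snd (layerProdEquiv_rho A B H N τ x)

theorem isDefined_layerPair_prod (hA : (layerPair A H N g).IsDefined)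
    (hB : (layerPair B H N g).IsDefined) : (layerPair (prodRep A B) H N g).IsDefined :=
  (layerPairProdIso A B H N g).isDefined_iff.mpr (Pair.isDefined_prod _ _ hA hB)

theorem q_layerPair_prod (hA : (layerPair A H N g).IsDefined)
    (hB : (layerPair B H N g).IsDefined) :
    (layerPair (prodRep A B) H N g).q = (layerPair A H N g).q * (layerPair B H N g).q := by
  rw [(layerPairProdIso A B H N g).q_eq, Pair.q_prod _ _ hA hB]

end LayerProd

/-! ### the layers of a finite direct sum -/

section LayerDs

variable {ι : Type} [Fintype ι] (A : ι → Rep ℤ G) (H : Subgroup G) (N : Subgroup H) [N.Normal]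

/-- the additive group structure on the layers of a family (instance synthesis does not find it
under a binder) -/
noncomputable local instance layerFamACG : ∀ i, AddCommGroup (layer (A i) H N).V :=
  fun i => (layer (A i) H N).hV1

/-- `(⨁ᵢ Aᵢ)^N = ∏ᵢ Aᵢ^N` for a finite index set -/
noncomputable def layerDsEquiv :
    (layer (dsRep A) H N).V ≃+ ∀ i, (layer (A i) H N).V where
  toFun x i := layerMk H N (dsRep.toDS A x.1 i) (fun n => by
    have := congrArg (fun y => dsRep.toDS A y i) (x.2 n)
    exact this)
  invFun y := layerMk H N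
    (dsRep.ofDS A (DFinsupp.equivFunOnFintype.symm (fun i => (y i).1)))
    (fun n => by
      apply dsRep.ext
      intro i
      rw [dsRep.ρ_apply]
      exact (y i).2 n)
  left_inv x := by
    apply Subtype.ext
    apply dsRep.ext
    intro i
    rfl
  right_inv y := by
    funext i
    apply Subtype.ext
    rfl
  map_add' x y := rfl

theorem layerDsEquiv_rho (τ : H ⧸ N) (x : (layer (dsRep A) H N).V) (i : ι) :
    layerDsEquiv A H N ((layer (dsRep A) H N).ρ τ x) i =
      (layer (A i) H N).ρ τ (layerDsEquiv A H N x i) := by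
  obtain ⟨h, rfl⟩ := QuotientGroup.mk_surjective τ
  rfl

variable [Fintype (H ⧸ N)] (g : H ⧸ N)

/-- the Herbrand pair of the layer of a finite direct sum is the product of the Herbrand pairs -/
noncomputable def layerPairDsIso :
    Pair.Iso (layerPair (dsRep A) H N g) (Pair.pi fun i => layerPair (A i) H N g) where
  e := layerDsEquiv A H N
  comm_f x := by
    funext i
    change layerDsEquiv A H N ((layer (dsRep A) H N).ρ g x - x) i = _
    rw [map_sub, Pi.sub_apply, layerDsEquiv_rho]
    rfl
  comm_g x := by
    funext i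
    change layerDsEquiv A H N (normHom (repRhoM (layer (dsRep A) H N)) x) i =
      normHom (repRhoM (layer (A i) H N)) (layerDsEquiv A H N x i)
    rw [HerbrandCyclic54.normHom_apply, HerbrandCyclic54.normHom_apply, map_sum,
      Finset.sum_apply]
    exact Finset.sum_congr rfl fun τ _ => layerDsEquiv_rho A H N τ x i

theorem isDefined_layerPair_ds (hA : ∀ i, (layerPair (A i) H N g).IsDefined) :
    (layerPair (dsRep A) H N g).IsDefined :=
  (layerPairDsIso A H N g).isDefined_iff.mpr (Pair.isDefined_pi _ hA)

theorem q_layerPair_ds :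
    (layerPair (dsRep A) H N g).q = ∏ i, (layerPair (A i) H N g).q := by
  rw [(layerPairDsIso A H N g).q_eq, Pair.q_pi]

end LayerDs

end Fermat.Agent.S55.FirstIneq27.LayerProd
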