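/-
S55 / 31-FIRST-INEQ (helper27), MAIN part 3: the first inequality for ALL cyclic layers of a
presented `S`-idele class module of a level `L`.

`C` is ANY representation of `Gal(L/ℚ)` with a presentation `J_S(L) × I^S(L) → C → 0` whose kernel
is the diagonal image of `Lˣ` (helper44's `CS L S h`, helper79's `classMod` both qualify).
For a finite `T ⊇ S` which is good for the class groups of all layer fields (helper16's
`RelBridge.exists_finset_forall_layer_diag`) we split `I^S = I_{T∖S} ⊕ I^T` and apply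
`Layer.layer_first_ineq` to `X = Lˣ`, `A = J_S × I_{T∖S}`, `B = I^T`.  The remaining inputs are the
local factors `q(Jq-layer)`, `q(Zq-layer)` and the Herbrand quotient of the `T`-units of the layer.
-/
import Mathlib
import Fermat.Agent.S55.FirstIneq27.LayerProd
import Fermat.Agent.S55.FirstIneq16.RelBridge
import Fermat.Agent.S55.IdeleVal44.Ideal
import Fermat.Agent.S55.Idele73.Components
import Fermat.Agent.S55.Descent99

set_option autoImplicit false

namespace Fermat.Agent.S55.FirstIneq27.Main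

open CategoryTheory
open Fermat.Agent.S55.Idele73.Basic Fermat.Agent.S55.IdeleVal44
open Fermat.Agent.S55.Herbrand54 Fermat.Agent.S55.HerbrandCyclic54 Fermat.Agent.S55.HerbrandHcyc54
open Fermat.Agent.S55.SUnit1.HomSES Fermat.Agent.S55.Adapt77.HcycGlue
open Fermat.Agent.S55.FirstIneq27.Split Fermat.Agent.S55.FirstIneq27.Layer
open Fermat.Agent.S55.FirstIneq27.LayerProd
open scoped DirectSum

attribute [local instance] factPrimes44

/-! ### the split presentation -/

section Pres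

variable (L : IntermediateField ℚ Qbar) [Normal ℚ L] (S T : Finset Nat.Primes)

/-- the family of divisor modules outside `S` (so that `IS L S = dsRep (Zfam L S)`) -/
noncomputable abbrev Zfam : OutS S → Rep ℤ (GalL L) := fun ℓ => Zq L ℓ.1.1

/-- the primes outside `S` which lie in `T` -/
def inT : OutS S → Prop := fun ℓ => ℓ.1 ∈ T

/-- the divisors supported in `T ∖ S` -/
noncomputable abbrev IT : Rep ℤ (GalL L) := dsRep (subFam (Zfam L S) (inT S T))

/-- the divisors supported outside `S ∪ T` -/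
noncomputable abbrev IO : Rep ℤ (GalL L) := dsRep (subFam (Zfam L S) (fun ℓ => ¬ inT S T ℓ))

/-- `A = J_S × I_{T∖S}` -/
noncomputable abbrev AT : Rep ℤ (GalL L) := prodRep (JS L S) (IT L S T)

variable {L S}
variable (h : UnrOutside L S)

/-- `Lˣ → J_S × I_{T∖S}` -/
noncomputable def alpha : Lx L ⟶ AT L S T :=
  prodLift (diagS L S) (idealMap h ≫ res (Zfam L S) (inT S T))

/-- `Lˣ → I^{S ∪ T}` -/
noncomputable def beta : Lx L ⟶ IO L S T :=
  idealMap h ≫ res (Zfam L S) (fun ℓ => ¬ inT S T ℓ)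

theorem alpha_apply (x : Lx L) :
    prodRep.toProd _ _ ((alpha T h).hom x) =
      ((diagS L S).hom x, (res (Zfam L S) (inT S T)).hom ((idealMap h).hom x)) := rfl

theorem beta_apply (x : Lx L) :
    (beta T h).hom x = (res (Zfam L S) (fun ℓ => ¬ inT S T ℓ)).hom ((idealMap h).hom x) := rfl

variable {C : Rep ℤ (GalL L)} (jC : JS L S ⟶ C) (iC : IS L S ⟶ C)

/-- `J_S × I_{T∖S} → C` -/
noncomputable def aMap : AT L S T ⟶ C := prodDesc jC (ext (Zfam L S) (inT S T) ≫ iC)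

/-- `I^{S ∪ T} → C` -/
noncomputable def bMap : IO L S T ⟶ C := ext (Zfam L S) (fun ℓ => ¬ inT S T ℓ) ≫ iC

theorem aMap_apply (u : (AT L S T).V) :
    (aMap T jC iC).hom u = jC.hom (prodRep.toProd _ _ u).1 +
      iC.hom ((ext (Zfam L S) (inT S T)).hom (prodRep.toProd _ _ u).2) := rfl

theorem bMap_apply (v : (IO L S T).V) :
    (bMap T iC).hom v = iC.hom ((ext (Zfam L S) (fun ℓ => ¬ inT S T ℓ)).hom v) := rfl

/-- the splitting of a divisor outside `S` -/
theorem eq_ext_add_iff (w : (IS L S).V) (w₁ : (IT L S T).V) (v : (IO L S T).V) :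
    w = (ext (Zfam L S) (inT S T)).hom w₁ + (ext (Zfam L S) (fun ℓ => ¬ inT S T ℓ)).hom v ↔
      (res (Zfam L S) (inT S T)).hom w = w₁ ∧
        (res (Zfam L S) (fun ℓ => ¬ inT S T ℓ)).hom w = v := by
  constructor
  · intro hw
    constructor
    · rw [hw, map_add, res_ext, res_ext_not, add_zero]
    · rw [hw, map_add, res_not_ext, res_ext, zero_add]
  · rintro ⟨h1, h2⟩
    rw [← h1, ← h2]
    exact (ext_res_add (Zfam L S) (inT S T) w).symm

variable (hCex : ∀ (u : (JS L S).V) (w : (IS L S).V), jC.hom u + iC.hom w = 0 ↔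
  ∃ x : (Lx L).V, (diagS L S).hom x = u ∧ (idealMap h).hom x = w)

include hCex in
/-- exactness of the split presentation -/
theorem pres_hex (u : (AT L S T).V) (v : (IO L S T).V) :
    (aMap T jC iC).hom u + (bMap T iC).hom v = 0 ↔
      ∃ x : (Lx L).V, (alpha T h).hom x = u ∧ (beta T h).hom x = v := by
  rw [aMap_apply, bMap_apply, add_assoc, ← map_add, hCex]
  constructor
  · rintro ⟨x, hx1, hx2⟩
    obtain ⟨h1, h2⟩ := (eq_ext_add_iff T _ _ _).mp hx2
    refine ⟨x, ?_, ?_⟩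
    · show prodRep.ofProd _ _ (prodRep.toProd _ _ ((alpha T h).hom x)) = u
      rw [alpha_apply, hx1, h1]
      rfl
    · rw [beta_apply, h2]
  · rintro ⟨x, rfl, rfl⟩
    refine ⟨x, ?_, ?_⟩
    · rw [alpha_apply]
    · rw [alpha_apply, beta_apply]
      exact (eq_ext_add_iff T _ _ _).mpr ⟨rfl, rfl⟩

variable (hCsurj : ∀ c : C.V, ∃ (u : (JS L S).V) (w : (IS L S).V), jC.hom u + iC.hom w = c)

include hCsurj in
/-- surjectivity of the split presentation -/
theorem pres_hsurj (c : C.V) :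
    ∃ (u : (AT L S T).V) (v : (IO L S T).V), (aMap T jC iC).hom u + (bMap T iC).hom v = c := by
  obtain ⟨u, w, rfl⟩ := hCsurj c
  refine ⟨prodRep.ofProd _ _ (u, (res (Zfam L S) (inT S T)).hom w),
    (res (Zfam L S) (fun ℓ => ¬ inT S T ℓ)).hom w, ?_⟩
  rw [aMap_apply, bMap_apply, add_assoc, ← map_add]
  show jC.hom u + iC.hom ((ext (Zfam L S) (inT S T)).hom ((res (Zfam L S) (inT S T)).hom w) +
    (ext (Zfam L S) (fun ℓ => ¬ inT S T ℓ)).hom
      ((res (Zfam L S) (fun ℓ => ¬ inT S T ℓ)).hom w)) = _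
  rw [ext_res_add]

end Pres

/-! ### injectivity of the diagonal, Hilbert 90, the class-group step -/

section Inputs

variable (L : IntermediateField ℚ Qbar) [Normal ℚ L]

/-- the diagonal `Lˣ → Jq q L` is injective -/
theorem diag_eq_zero (q : ℕ) [Fact q.Prime] (x : Lx L) (hx : (diag q L).hom x = 0) : x = 0 := by
  have h1 := diag_hom_apply L q x 1
  rw [hx] at h1
  have h2 := congrArg (fun a => ((Additive.toMul a : (PadicAlgCl q)ˣ) : PadicAlgCl q)) h1
  simp only [toMul_ofMul, Units.coe_map, one_smul] at h2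
  have h3 : (1 : PadicAlgCl q) = iotaL q L ((Rep.toAdditive x).toMul : Lˣ) := h2
  have h4 : (((Rep.toAdditive x).toMul : Lˣ) : L) = 1 :=
    iotaL_injective q L (h3.symm.trans (map_one _).symm)
  have h5 : Rep.toAdditive x = 0 := by
    apply Additive.toMul.injective
    exact Units.ext h4
  exact (Rep.toAdditive (M := GalL L) (G := Lˣ)).injective h5

variable {L}

/-- injectivity of `Lˣ → J_S × I_{T∖S}` for nonempty `S` -/
theorem pres_hinj {S : Finset Nat.Primes} (T : Finset Nat.Primes) (h : UnrOutside L S)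
    (hS : S.Nonempty) (x : (Lx L).V) (hx : (alpha T h).hom x = 0) : x = 0 := by
  obtain ⟨q, hq⟩ := hS
  have h1 : (diagS L S).hom x = 0 := by
    have := congrArg (fun y => (prodRep.toProd (JS L S) (IT L S T) y).1) hx
    exact this
  have h2 : (diag q.1 L).hom x = 0 := by
    rw [← diagS_hom_apply L S x ⟨q, hq⟩, h1]
    rfl
  exact diag_eq_zero L q.1 x h2

variable (L)
variable [FiniteDimensional ℚ L]

omit [Normal ℚ L] in
/-- Hilbert 90 for `Lˣ` on the subgroup `N ≤ H ≤ Gal(L/ℚ)`, cocycle form -/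
theorem hH90_Lx (H : Subgroup (GalL L)) (N : Subgroup H) (z : N → (Lx L).V)
    (hz : ∀ n m : N, z (n * m) = (Lx L).ρ ((n : H) : GalL L) (z m) + z n) :
    ∃ y : (Lx L).V, ∀ n : N, (Lx L).ρ ((n : H) : GalL L) y - y = z n := by
  let N' : Subgroup (GalL L) := N.map H.subtype
  let e : N ≃* N' := N.equivMapOfInjective H.subtype H.subtype_injective
  have he : ∀ a : N', (((e.symm a : N) : H) : GalL L) = (a : GalL L) := by
    intro a
    have := Subgroup.coe_equivMapOfInjective_apply N H.subtype H.subtype_injective (e.symm a)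
    exact this.symm.trans (congrArg Subtype.val (e.apply_symm_apply a))
  have h1 := Fermat.Agent.S55.Idele73.Components.isZero_H1_resUnits (F := ℚ) (E := L) N'
  obtain ⟨y, hy⟩ := Fermat.Agent.S55.Descent99.exists_eq_sub_of_isZero_H1 (Lx L) N' h1
    (fun a => z (e.symm a)) (fun a b => by
      rw [map_mul, hz, he])
  refine ⟨y, fun n => ?_⟩
  have := hy (e n)
  rw [e.symm_apply_apply] at this
  rw [← this]
  rfl

/-- helper16's class-group property of `T`: for every subgroup `N`, every finitely supported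
`N`-invariant divisor is principal outside `T`, by an `N`-invariant element. -/
def ClassGood (T : Finset Nat.Primes) : Prop :=
  ∀ (N : Subgroup (GalL L)) (n : Nat.Primes → GalL L → ℤ), {ℓ | n ℓ ≠ 0}.Finite →
    (∀ (ℓ : Nat.Primes) (τ : Gq (ℓ : ℕ)) (g : GalL L), n ℓ (locHom (ℓ : ℕ) L τ * g) = n ℓ g) →
    (∀ (ℓ : Nat.Primes) (g : GalL L), ∀ ν ∈ N, n ℓ (g * ν) = n ℓ g) →
    ∃ x : Lx L, (∀ ν ∈ N, (Lx L).ρ ν x = x) ∧ ∀ ℓ : Nat.Primes, ℓ ∉ T → ∀ g : GalL L,
      valAdd (ℓ : ℕ) (Rep.toAdditive (((diag (ℓ : ℕ) L).hom x).1 g)) = n ℓ g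

/-- (helper16, `RelBridge.exists_finset_forall_layer_diag`) a good `T ⊇ S` exists -/
theorem exists_classGood (S : Finset Nat.Primes) (h : UnrOutside L S) :
    ∃ T : Finset Nat.Primes, S ⊆ T ∧ ClassGood L T := by
  obtain ⟨T, hST, hT⟩ := Fermat.Agent.S55.FirstIneq16.RelBridge.exists_finset_forall_layer_diag L S
  exact ⟨T, hST, hT T (Finset.Subset.refl T) (fun ℓ hℓ => h ℓ (fun hS => hℓ (hST hS)))⟩

variable {L}
variable {S : Finset Nat.Primes} (T : Finset Nat.Primes) (h : UnrOutside L S)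

omit [FiniteDimensional ℚ L] in
/-- the class-group step: `(Lˣ)^N → (I^{S ∪ T})^N` is onto for a good `T` -/
theorem hcl_beta (hT : ClassGood L T) (H : Subgroup (GalL L)) (N : Subgroup H)
    (v : (IO L S T).V) (hv : ∀ n : N, (IO L S T).ρ ((n : H) : GalL L) v = v) :
    ∃ x : (Lx L).V, (∀ n : N, (Lx L).ρ ((n : H) : GalL L) x = x) ∧ (beta T h).hom x = v := by
  classical
  let n : Nat.Primes → GalL L → ℤ := fun ℓ g =>
    if hℓ : ℓ ∉ S ∧ ℓ ∉ T then ((dsRep.toDS _ v ⟨⟨ℓ, hℓ.1⟩, hℓ.2⟩).1 g : ℤ) else 0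
  have hn : ∀ (i : {ℓ : OutS S // ¬ inT S T ℓ}) (g : GalL L),
      n i.1.1 g = ((dsRep.toDS _ v i).1 g : ℤ) := by
    intro i g
    have : i.1.1 ∉ S ∧ i.1.1 ∉ T := ⟨i.1.2, i.2⟩
    show (if hℓ : i.1.1 ∉ S ∧ i.1.1 ∉ T then _ else _) = _
    rw [dif_pos this]
  have hfin : {ℓ | n ℓ ≠ 0}.Finite := by
    have h1 := DFinsupp.finite_support (dsRep.toDS _ v)
    refine (h1.image (fun i : {ℓ : OutS S // ¬ inT S T ℓ} => i.1.1)).subset ?_
    intro ℓ hℓ
    by_cases hc : ℓ ∉ S ∧ ℓ ∉ T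
    · refine ⟨⟨⟨ℓ, hc.1⟩, hc.2⟩, ?_, rfl⟩
      intro h0
      apply hℓ
      funext g
      show (if hℓ : ℓ ∉ S ∧ ℓ ∉ T then _ else _) = _
      rw [dif_pos hc, h0]
      rfl
    · exfalso
      apply hℓ
      funext g
      show (if hℓ : ℓ ∉ S ∧ ℓ ∉ T then _ else _) = _
      rw [dif_neg hc]
      rfl
  have hleft : ∀ (ℓ : Nat.Primes) (τ : Gq (ℓ : ℕ)) (g : GalL L),
      n ℓ (locHom (ℓ : ℕ) L τ * g) = n ℓ g := by
    intro ℓ τ g
    by_cases hc : ℓ ∉ S ∧ ℓ ∉ T
    · show (if hℓ : ℓ ∉ S ∧ ℓ ∉ T then _ else _) = (if hℓ : ℓ ∉ S ∧ ℓ ∉ T then _ else _)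
      rw [dif_pos hc, dif_pos hc]
      exact (dsRep.toDS _ v ⟨⟨ℓ, hc.1⟩, hc.2⟩).2 τ g
    · show (if hℓ : ℓ ∉ S ∧ ℓ ∉ T then _ else _) = (if hℓ : ℓ ∉ S ∧ ℓ ∉ T then _ else _)
      rw [dif_neg hc, dif_neg hc]
  have hright : ∀ (ℓ : Nat.Primes) (g : GalL L), ∀ ν ∈ N.map H.subtype, n ℓ (g * ν) = n ℓ g := by
    rintro ℓ g ν ⟨m, hm, rfl⟩
    by_cases hc : ℓ ∉ S ∧ ℓ ∉ T
    · show (if hℓ : ℓ ∉ S ∧ ℓ ∉ T then _ else _) = (if hℓ : ℓ ∉ S ∧ ℓ ∉ T then _ else _)
      rw [dif_pos hc, dif_pos hc]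
      have h1 := congrArg (fun y : (IO L S T).V =>
        (dsRep.toDS (subFam (Zfam L S) (fun ℓ => ¬ inT S T ℓ)) y ⟨⟨ℓ, hc.1⟩, hc.2⟩).1 g)
        (hv ⟨m, hm⟩)
      exact h1
    · show (if hℓ : ℓ ∉ S ∧ ℓ ∉ T then _ else _) = (if hℓ : ℓ ∉ S ∧ ℓ ∉ T then _ else _)
      rw [dif_neg hc, dif_neg hc]
  obtain ⟨x, hxN, hx⟩ := hT (N.map H.subtype) n hfin hleft hright
  refine ⟨x, fun m => hxN _ ⟨m.1, m.2, rfl⟩, ?_⟩
  apply dsRep.ext
  intro i
  rw [beta_apply, res_apply]
  apply Subtype.ext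
  funext g
  have h1 := idealMap_coord h x i.1 g
  rw [hx i.1.1 i.2 g, hn i g] at h1
  exact_mod_cast h1

end Inputs

/-! ### the assembly -/

section Assembly

variable {L : IntermediateField ℚ Qbar} [Normal ℚ L] [FiniteDimensional ℚ L]
variable {S : Finset Nat.Primes} (T : Finset Nat.Primes) (h : UnrOutside L S)

/-- the primes of `T` outside `S`, as a subtype of `OutS S` and as the finset `T \ S` -/
def inTEquiv : {ℓ : OutS S // inT S T ℓ} ≃ ↥(T \ S) where
  toFun i := ⟨i.1.1, Finset.mem_sdiff.mpr ⟨i.2, i.1.2⟩⟩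
  invFun j := ⟨⟨j.1, (Finset.mem_sdiff.mp j.2).2⟩, (Finset.mem_sdiff.mp j.2).1⟩
  left_inv _ := rfl
  right_inv _ := rfl

noncomputable instance fintypeInT : Fintype {ℓ : OutS S // inT S T ℓ} :=
  Fintype.ofEquiv _ (inTEquiv (S := S) T).symm

theorem prod_split (hST : S ⊆ T) (c : Nat.Primes → ℚ) :
    (∏ q : InS S, c q.1) * (∏ ℓ : {ℓ : OutS S // inT S T ℓ}, c ℓ.1.1) = ∏ ℓ ∈ T, c ℓ := by
  rw [← Finset.prod_sdiff hST, mul_comm]
  congr 1
  · rw [Fintype.prod_equiv (inTEquiv (S := S) T) (fun i => c i.1.1) (fun j => c j.1)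
      (fun i => rfl)]
    exact Finset.prod_coe_sort (T \ S) c
  · exact Finset.prod_coe_sort S c

variable {C : Rep ℤ (GalL L)} (jC : JS L S ⟶ C) (iC : IS L S ⟶ C)

/-- **the first inequality for one cyclic layer of a presented class module**, from the local
factors and the Herbrand quotient of the `T`-units of the layer. -/
theorem layer_first_ineq_CS (hS : S.Nonempty) (hST : S ⊆ T) (hT : ClassGood L T)
    (hCex : ∀ (u : (JS L S).V) (w : (IS L S).V), jC.hom u + iC.hom w = 0 ↔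
      ∃ x : (Lx L).V, (diagS L S).hom x = u ∧ (idealMap h).hom x = w)
    (hCsurj : ∀ c : C.V, ∃ (u : (JS L S).V) (w : (IS L S).V), jC.hom u + iC.hom w = c)
    (H : Subgroup (GalL L)) (N : Subgroup H) [N.Normal] [Fintype (H ⧸ N)] (g : H ⧸ N)
    (p : ℕ) (c : Nat.Primes → ℚ)
    (hJ : ∀ q : InS S, (layerPair (Jq q.1.1 L) H N g).IsDefined ∧
      (layerPair (Jq q.1.1 L) H N g).q = c q.1)
    (hZ : ∀ ℓ : {ℓ : OutS S // inT S T ℓ}, (layerPair (Zq L ℓ.1.1.1) H N g).IsDefined ∧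
      (layerPair (Zq L ℓ.1.1.1) H N g).q = c ℓ.1.1)
    (hE : (kerPair (layerHom (beta T h) H N g)).IsDefined ∧
      (kerPair (layerHom (beta T h) H N g)).q * p = ∏ ℓ ∈ T, c ℓ) :
    (layerPair C H N g).IsDefined ∧ (layerPair C H N g).q = p := by
  have hJS : (layerPair (JS L S) H N g).IsDefined :=
    isDefined_layerPair_ds _ H N g (fun q => (hJ q).1)
  have hIT : (layerPair (IT L S T) H N g).IsDefined :=
    isDefined_layerPair_ds _ H N g (fun ℓ => (hZ ℓ).1)
  have hA : (layerPair (AT L S T) H N g).IsDefined :=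
    isDefined_layerPair_prod _ _ H N g hJS hIT
  have hqA : (layerPair (AT L S T) H N g).q = ∏ ℓ ∈ T, c ℓ := by
    rw [q_layerPair_prod _ _ H N g hJS hIT, q_layerPair_ds, q_layerPair_ds, ← prod_split T hST c]
    congr 1
    · exact Finset.prod_congr rfl (fun q _ => (hJ q).2)
    · exact Finset.prod_congr rfl (fun ℓ _ => (hZ ℓ).2)
  refine layer_first_ineq (alpha T h) (beta T h) (aMap T jC iC) (bMap T iC) H N g
    (pres_hex T h jC iC hCex) (pres_hsurj T jC iC hCsurj)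
    (fun x hx _ => pres_hinj T h hS x hx) (hH90_Lx L H N) (hcl_beta T h hT H N) hA hE.1 ?_
  rw [hqA, ← hE.2, mul_comm]

/-- **(31-OUT) for a presented class module**: `FirstIneqOut C ⊤ p`, from the local factors and
the unit factor of all cyclic layers of order `p`. -/
theorem firstIneqOut_of_factors (hS : S.Nonempty) (hST : S ⊆ T) (hT : ClassGood L T)
    (hCex : ∀ (u : (JS L S).V) (w : (IS L S).V), jC.hom u + iC.hom w = 0 ↔
      ∃ x : (Lx L).V, (diagS L S).hom x = u ∧ (idealMap h).hom x = w)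
    (hCsurj : ∀ c : C.V, ∃ (u : (JS L S).V) (w : (IS L S).V), jC.hom u + iC.hom w = c)
    (p : ℕ)
    (hfac : ∀ (H : Subgroup (GalL L)) (N : Subgroup H) [N.Normal], Nat.card (H ⧸ N) = p →
      ∀ [Fintype (H ⧸ N)] (g : H ⧸ N), (∀ x, x ∈ Subgroup.zpowers g) →
      ∃ c : Nat.Primes → ℚ,
        (∀ q : InS S, (layerPair (Jq q.1.1 L) H N g).IsDefined ∧
          (layerPair (Jq q.1.1 L) H N g).q = c q.1) ∧
        (∀ ℓ : {ℓ : OutS S // inT S T ℓ}, (layerPair (Zq L ℓ.1.1.1) H N g).IsDefined ∧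
          (layerPair (Zq L ℓ.1.1.1) H N g).q = c ℓ.1.1) ∧
        ((kerPair (layerHom (beta T h) H N g)).IsDefined ∧
          (kerPair (layerHom (beta T h) H N g)).q * p = ∏ ℓ ∈ T, c ℓ)) :
    FirstIneqOut C ⊤ p := by
  intro H _ N _ hc _ g hg
  obtain ⟨c, hJ, hZ, hE⟩ := hfac H N hc g hg
  exact layer_first_ineq_CS T h jC iC hS hST hT hCex hCsurj H N g p c hJ hZ hE

end Assembly

end Fermat.Agent.S55.FirstIneq27.Main
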