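/-
S55 / 31-FIRST-INEQ (helper27), PRIME DICTIONARY.

`L/ℚ` a finite Galois level inside `ℚbar`, `q` a prime, `ι = iotaL q L : L → PadicAlgCl q`.
The primes of `𝓞 L` above `q` are exactly the `primeOf q L g = {x | ‖ι (g x)‖ < 1}`, `g ∈ Gal(L/ℚ)`,
and `primeOf q L g = primeOf q L g'` iff `g' ∈ D_q g` (`D_q` = image of `Gal(PadicAlgCl q/ℚ_q)`).
The `primeOf q L g`-adic valuation of Mathlib and the norm `‖ι (g ·)‖` are equivalent, with an
explicit base.
-/
import Mathlib
import Fermat.Prelude.Def_GaloisRep_CompletionBridge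
import Fermat.Agent.S55.Idele73.Basic
import Fermat.Agent.S55.ProfinLoc80.Decomp

set_option autoImplicit false
set_option linter.unusedSectionVars false

namespace Fermat.Agent.S55.FirstIneq27.Dict

open NumberField IsDedekindDomain WithZero
open Fermat.Agent.S55.Idele73.Basic

variable (q : ℕ) [Fact q.Prime]
variable (L : IntermediateField ℚ Qbar) [Normal ℚ L] [NumberField L]

theorem coe_natCast (n : ℕ) : ((n : 𝓞 L) : L) = n := map_natCast (algebraMap (𝓞 L) L) n

theorem coe_one : ((1 : 𝓞 L) : L) = 1 := map_one (algebraMap (𝓞 L) L)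

theorem coe_zero : ((0 : 𝓞 L) : L) = 0 := map_zero (algebraMap (𝓞 L) L)

theorem coe_mul (a b : 𝓞 L) : ((a * b : 𝓞 L) : L) = a * b := map_mul (algebraMap (𝓞 L) L) a b

theorem coe_add (a b : 𝓞 L) : ((a + b : 𝓞 L) : L) = a + b := map_add (algebraMap (𝓞 L) L) a b

/-- `x ↦ ι (g x)` -/
noncomputable def emb (g : GalL L) : L →+* PadicAlgCl q :=
  (iotaL q L).comp (g : L →+* L)

theorem emb_apply (g : GalL L) (x : L) : emb q L g x = iotaL q L (g x) := rfl

theorem emb_one (x : L) : emb q L 1 x = iotaL q L x := rfl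

theorem emb_mul (g s : GalL L) (x : L) : emb q L (g * s) x = emb q L g (s x) := rfl

theorem emb_locHom_mul (τ : Gq q) (g : GalL L) (x : L) :
    emb q L (locHom q L τ * g) x = τ (emb q L g x) := by
  rw [emb_apply, emb_apply, AlgEquiv.mul_apply, iotaL_locHom]

theorem norm_emb_locHom_mul (τ : Gq q) (g : GalL L) (x : L) :
    ‖emb q L (locHom q L τ * g) x‖ = ‖emb q L g x‖ := by
  rw [emb_locHom_mul]
  have := nnnorm_padicAlgCl_algEquiv q τ (emb q L g x)
  exact congrArg NNReal.toReal this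

/-- elements of `PadicAlgCl q` integral over `ℤ` have norm `≤ 1` -/
theorem norm_le_one_of_isIntegral {x : PadicAlgCl q} (hx : IsIntegral ℤ x) : ‖x‖ ≤ 1 := by
  have h1 : IsIntegral (padicIntegers q) x := hx.tower_top
  obtain ⟨y, hy⟩ := IsIntegrallyClosed.isIntegral_iff.mp h1
  have : x ∈ padicIntegers q := by rw [← hy]; exact y.2
  have h2 := (mem_padicIntegers_iff q).mp this
  exact_mod_cast h2

theorem norm_emb_le_one (g : GalL L) (x : 𝓞 L) : ‖emb q L g (x : L)‖ ≤ 1 :=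
  norm_le_one_of_isIntegral q (map_isIntegral_int (emb q L g) x.2)

theorem norm_emb_natCast_q (g : GalL L) : ‖emb q L g ((q : ℕ) : L)‖ = (q : ℝ)⁻¹ := by
  rw [map_natCast]
  exact ProfinLoc80.norm_natCast_q q

/-- the prime ideal `{x ∈ 𝓞 L | ‖ι (g x)‖ < 1}` -/
noncomputable def primeIdeal (g : GalL L) : Ideal (𝓞 L) where
  carrier := {x | ‖emb q L g (x : L)‖ < 1}
  add_mem' {a b} ha hb := by
    show ‖emb q L g ((a + b : 𝓞 L) : L)‖ < 1
    rw [show ((a + b : 𝓞 L) : L) = (a : L) + (b : L) from map_add (algebraMap (𝓞 L) L) a b, map_add]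
    exact lt_of_le_of_lt (IsUltrametricDist.norm_add_le_max _ _) (max_lt ha hb)
  zero_mem' := by
    show ‖emb q L g ((0 : 𝓞 L) : L)‖ < 1
    rw [show ((0 : 𝓞 L) : L) = 0 from map_zero (algebraMap (𝓞 L) L), map_zero, norm_zero]
    exact one_pos
  smul_mem' c x hx := by
    show ‖emb q L g ((c • x : 𝓞 L) : L)‖ < 1
    rw [smul_eq_mul, show ((c * x : 𝓞 L) : L) = (c : L) * (x : L) from
      map_mul (algebraMap (𝓞 L) L) c x, map_mul, norm_mul]
    calc ‖emb q L g (c : L)‖ * ‖emb q L g (x : L)‖ ≤ 1 * ‖emb q L g (x : L)‖ :=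
          mul_le_mul_of_nonneg_right (norm_emb_le_one q L g c) (norm_nonneg _)
      _ < 1 := by rw [one_mul]; exact hx

theorem mem_primeIdeal_iff (g : GalL L) (x : 𝓞 L) :
    x ∈ primeIdeal q L g ↔ ‖emb q L g (x : L)‖ < 1 := Iff.rfl

theorem natCast_mem_primeIdeal (g : GalL L) : ((q : ℕ) : 𝓞 L) ∈ primeIdeal q L g := by
  rw [mem_primeIdeal_iff, coe_natCast, norm_emb_natCast_q]
  exact inv_lt_one_of_one_lt₀ (ProfinLoc80.one_lt_q q)

instance isPrime_primeIdeal (g : GalL L) : (primeIdeal q L g).IsPrime where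
  ne_top' := by
    rw [Ne, Ideal.eq_top_iff_one, mem_primeIdeal_iff, coe_one, map_one, norm_one]
    exact lt_irrefl 1
  mem_or_mem' := by
    intro a b hab
    rw [mem_primeIdeal_iff, coe_mul, map_mul, norm_mul] at hab
    by_contra hcon
    rw [not_or, mem_primeIdeal_iff, mem_primeIdeal_iff, not_lt, not_lt] at hcon
    have h1 : ‖emb q L g (a : L)‖ = 1 := le_antisymm (norm_emb_le_one q L g a) hcon.1
    have h2 : ‖emb q L g (b : L)‖ = 1 := le_antisymm (norm_emb_le_one q L g b) hcon.2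
    rw [h1, h2, one_mul] at hab
    exact lt_irrefl 1 hab

theorem primeIdeal_ne_bot (g : GalL L) : primeIdeal q L g ≠ ⊥ := by
  intro h
  have h1 := natCast_mem_primeIdeal q L g
  rw [h, Ideal.mem_bot] at h1
  have hq : (q : 𝓞 L) ≠ 0 := Nat.cast_ne_zero.mpr (Fact.out : q.Prime).ne_zero
  exact hq h1

/-- the prime of `𝓞 L` above `q` attached to `g` -/
noncomputable def primeOf (g : GalL L) : HeightOneSpectrum (𝓞 L) :=
  ⟨primeIdeal q L g, isPrime_primeIdeal q L g, primeIdeal_ne_bot q L g⟩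

theorem mem_primeOf_iff (g : GalL L) (x : 𝓞 L) :
    x ∈ (primeOf q L g).asIdeal ↔ ‖emb q L g (x : L)‖ < 1 := Iff.rfl

theorem natCast_mem_primeOf (g : GalL L) : ((q : ℕ) : 𝓞 L) ∈ (primeOf q L g).asIdeal :=
  natCast_mem_primeIdeal q L g

theorem mem_primeOf_mul_right (g s : GalL L) (x : 𝓞 L) :
    x ∈ (primeOf q L (g * s)).asIdeal ↔ s • x ∈ (primeOf q L g).asIdeal := Iff.rfl

/-! ### comparison of the `P`-adic valuation with the norm -/

theorem norm_emb_eq_one_of_notMem (g : GalL L) {a : 𝓞 L} (ha : a ∉ (primeOf q L g).asIdeal) :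
    ‖emb q L g (a : L)‖ = 1 :=
  le_antisymm (norm_emb_le_one q L g a) (not_lt.mp ha)

theorem emb_ne_zero (g : GalL L) {x : L} (hx : x ≠ 0) : emb q L g x ≠ 0 :=
  (map_ne_zero_iff _ (emb q L g).injective).mpr hx

theorem norm_emb_le_one_of_valuation_le_one (g : GalL L) {x : L}
    (hx : (primeOf q L g).valuation L x ≤ 1) : ‖emb q L g x‖ ≤ 1 := by
  obtain ⟨n, d, hnd⟩ := (primeOf q L g).exists_primeCompl_mul_eq_of_integer x hx
  have hd : ‖emb q L g ((d : 𝓞 L) : L)‖ = 1 := norm_emb_eq_one_of_notMem q L g d.2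
  have h1 : ‖emb q L g x‖ * ‖emb q L g ((d : 𝓞 L) : L)‖ = ‖emb q L g (n : L)‖ := by
    rw [← norm_mul, ← map_mul]
    exact congrArg (fun z => ‖emb q L g z‖) hnd
  rw [hd, mul_one] at h1
  rw [h1]
  exact norm_emb_le_one q L g n

theorem norm_emb_lt_one_of_valuation_lt_one (g : GalL L) {x : L}
    (hx : (primeOf q L g).valuation L x < 1) : ‖emb q L g x‖ < 1 := by
  obtain ⟨n, d, hnd⟩ := (primeOf q L g).exists_primeCompl_mul_eq_of_integer x hx.le
  have hd : ‖emb q L g ((d : 𝓞 L) : L)‖ = 1 := norm_emb_eq_one_of_notMem q L g d.2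
  have h1 : ‖emb q L g x‖ * ‖emb q L g ((d : 𝓞 L) : L)‖ = ‖emb q L g (n : L)‖ := by
    rw [← norm_mul, ← map_mul]
    exact congrArg (fun z => ‖emb q L g z‖) hnd
  rw [hd, mul_one] at h1
  rw [h1, ← mem_primeOf_iff, ← HeightOneSpectrum.valuation_lt_one_iff_mem (K := L)]
  have hvd : (primeOf q L g).valuation L (algebraMap (𝓞 L) L (d : 𝓞 L)) = 1 :=
    ((primeOf q L g).valuation_eq_one_iff_notMem (K := L)).mpr d.2
  have := congrArg ((primeOf q L g).valuation L) hnd
  rw [map_mul, hvd, mul_one] at this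
  rw [← this]
  exact hx

/-- **Dictionary, valuations.** -/
theorem valuation_primeOf_le_one_iff (g : GalL L) (x : L) :
    (primeOf q L g).valuation L x ≤ 1 ↔ ‖emb q L g x‖ ≤ 1 := by
  refine ⟨norm_emb_le_one_of_valuation_le_one q L g, fun h => ?_⟩
  by_contra hcon
  rw [not_le] at hcon
  have hx0 : x ≠ 0 := by
    rintro rfl
    rw [map_zero] at hcon
    exact not_lt.mpr zero_le_one hcon
  have hinv : (primeOf q L g).valuation L x⁻¹ < 1 := by
    rw [map_inv₀]
    exact inv_lt_one_of_one_lt₀ hcon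
  have h1 := norm_emb_lt_one_of_valuation_lt_one q L g hinv
  rw [map_inv₀, norm_inv] at h1
  have hpos : 0 < ‖emb q L g x‖ := norm_pos_iff.mpr (emb_ne_zero q L g hx0)
  have h2 : 1 < ‖emb q L g x‖ := by
    rw [inv_lt_one₀ hpos] at h1
    exact h1
  exact not_lt.mpr h h2

theorem valuation_primeOf_lt_one_iff (g : GalL L) (x : L) :
    (primeOf q L g).valuation L x < 1 ↔ ‖emb q L g x‖ < 1 := by
  refine ⟨norm_emb_lt_one_of_valuation_lt_one q L g, fun h => ?_⟩
  by_contra hcon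
  rw [not_lt] at hcon
  have hx0 : x ≠ 0 := by
    rintro rfl
    rw [map_zero] at hcon
    exact not_lt.mpr hcon zero_lt_one
  have hinv : (primeOf q L g).valuation L x⁻¹ ≤ 1 := by
    rw [map_inv₀]
    exact inv_le_one_of_one_le₀ hcon
  have h1 := norm_emb_le_one_of_valuation_le_one q L g hinv
  rw [map_inv₀, norm_inv] at h1
  have hpos : 0 < ‖emb q L g x‖ := norm_pos_iff.mpr (emb_ne_zero q L g hx0)
  have h2 : 1 ≤ ‖emb q L g x‖ := by
    rw [inv_le_one₀ hpos] at h1
    exact h1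
  exact not_lt.mpr h2 h

theorem valuation_primeOf_eq_one_iff (g : GalL L) (x : L) :
    (primeOf q L g).valuation L x = 1 ↔ ‖emb q L g x‖ = 1 := by
  constructor
  · intro h
    refine le_antisymm ((valuation_primeOf_le_one_iff q L g x).mp h.le) ?_
    by_contra hcon
    rw [not_le, ← valuation_primeOf_lt_one_iff, h] at hcon
    exact lt_irrefl _ hcon
  · intro h
    refine le_antisymm ((valuation_primeOf_le_one_iff q L g x).mpr h.le) ?_
    by_contra hcon
    rw [not_le, valuation_primeOf_lt_one_iff, h] at hcon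
    exact lt_irrefl _ hcon

/-- **Dictionary, explicit base.**  `‖ι (g x)‖ = c ^ ord_P x` with `c = ‖ι (g π)‖`, `π` a
uniformizer at `P = primeOf q L g`. -/
theorem exists_base (g : GalL L) : ∃ c : ℝ, 0 < c ∧ c < 1 ∧ ∀ (x : L) (n : ℤ),
    (primeOf q L g).valuation L x = exp (-n) → ‖emb q L g x‖ = c ^ n := by
  obtain ⟨π, hπ⟩ := (primeOf q L g).valuation_exists_uniformizer L
  have hπ0 : π ≠ 0 := by
    rintro rfl
    rw [map_zero] at hπ
    exact exp_ne_zero hπ.symm
  have hlt : ‖emb q L g π‖ < 1 := by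
    rw [← valuation_primeOf_lt_one_iff, hπ, ← exp_zero, exp_lt_exp]
    norm_num
  have hpos : 0 < ‖emb q L g π‖ := norm_pos_iff.mpr (emb_ne_zero q L g hπ0)
  refine ⟨‖emb q L g π‖, hpos, hlt, fun x n hx => ?_⟩
  have h1 : (primeOf q L g).valuation L (x * π ^ (-n)) = 1 := by
    rw [map_mul, map_zpow₀, hx, hπ, ← exp_zsmul, ← exp_add, ← exp_zero]
    congr 1
    simp
  have h2 := (valuation_primeOf_eq_one_iff q L g _).mp h1
  rw [map_mul, map_zpow₀, norm_mul, norm_zpow, zpow_neg] at h2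
  have hc : ‖emb q L g π‖ ^ n ≠ 0 := zpow_ne_zero _ hpos.ne'
  field_simp at h2
  exact h2

/-- in the unramified case the base is `q⁻¹` -/
theorem norm_emb_eq_of_valuation_natCast (g : GalL L)
    (hunr : (primeOf q L g).valuation L ((q : ℕ) : L) = exp (-1 : ℤ)) (x : L) (n : ℤ)
    (hx : (primeOf q L g).valuation L x = exp (-n)) : ‖emb q L g x‖ = ((q : ℝ)⁻¹) ^ n := by
  obtain ⟨c, _, _, hc⟩ := exists_base q L g
  have h1 := hc _ 1 hunr
  rw [norm_emb_natCast_q, zpow_one] at h1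
  rw [h1]
  exact hc x n hx

/-! ### transitivity -/

theorem under_eq_span (Q : Ideal (𝓞 L)) [Q.IsPrime] (hq : ((q : ℕ) : 𝓞 L) ∈ Q) :
    Q.under ℤ = Ideal.span {(q : ℤ)} := by
  have hmax : (Ideal.span {(q : ℤ)}).IsMaximal := Int.ideal_span_isMaximal_of_prime q
  refine (hmax.eq_of_le (Ideal.IsPrime.under ℤ Q).ne_top ?_).symm
  rw [Ideal.span_singleton_le_iff_mem, Ideal.under_def, Ideal.mem_comap]
  simpa using hq

/-- **Dictionary, transitivity**: every prime of `𝓞 L` above `q` is a `primeOf q L g`. -/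
theorem exists_primeOf_eq (P : HeightOneSpectrum (𝓞 L)) (hP : ((q : ℕ) : 𝓞 L) ∈ P.asIdeal) :
    ∃ g : GalL L, primeOf q L g = P := by
  have : IsGalois ℚ L := ⟨⟩
  have : P.asIdeal.IsPrime := P.isPrime
  have hu : (primeIdeal q L 1).under ℤ = P.asIdeal.under ℤ := by
    rw [under_eq_span q L _ (natCast_mem_primeIdeal q L 1), under_eq_span q L _ hP]
  obtain ⟨σ, hσ⟩ := Algebra.IsInvariant.exists_smul_of_under_eq ℤ (𝓞 L) (GalL L)
    (primeIdeal q L 1) P.asIdeal hu
  refine ⟨σ⁻¹, HeightOneSpectrum.ext ?_⟩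
  ext x
  rw [hσ, Ideal.mem_pointwise_smul_iff_inv_smul_mem]
  rfl

/-! ### the fibres of `g ↦ primeOf q L g` -/

theorem primeOf_locHom_mul (τ : Gq q) (g : GalL L) :
    primeOf q L (locHom q L τ * g) = primeOf q L g := by
  apply HeightOneSpectrum.ext
  ext x
  rw [mem_primeOf_iff, mem_primeOf_iff, norm_emb_locHom_mul]

theorem exists_locHom_mul_eq (g g' : GalL L) (h : primeOf q L g = primeOf q L g') :
    ∃ τ : Gq q, g' = locHom q L τ * g := by
  set σ : GalL L := g' * g⁻¹ with hσ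
  have hball : ∀ y : L, ‖iotaL q L (σ.toRingEquiv y)‖ ≤ 1 ↔ ‖iotaL q L y‖ ≤ 1 := by
    intro y
    have h1 : iotaL q L (σ.toRingEquiv y) = emb q L g' (g⁻¹ y) := rfl
    have h2 : iotaL q L y = emb q L g (g⁻¹ y) := by
      rw [emb_apply, ← AlgEquiv.mul_apply, mul_inv_cancel, AlgEquiv.one_apply]
    rw [h1, h2, ← valuation_primeOf_le_one_iff, ← valuation_primeOf_le_one_iff, h]
  have hnorm : ∀ x : L, ‖padicEmbedding q ((σ x : L) : AlgebraicClosure ℚ)‖ =
      ‖padicEmbedding q (x : AlgebraicClosure ℚ)‖ :=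
    ProfinLoc80.norm_map_eq_of_unitBall q (iotaL q L) σ.toRingEquiv hball
  obtain ⟨τ, hτ⟩ := ProfinLoc80.exists_local_lift_of_norm q L σ hnorm
  refine ⟨τ, ?_⟩
  have h3 : locHom q L τ = σ := by
    apply AlgEquiv.ext
    intro x
    apply iotaL_injective q L
    rw [iotaL_locHom]
    exact hτ x
  rw [h3, hσ, inv_mul_cancel_right]

/-- **Dictionary, fibres.** -/
theorem primeOf_eq_iff (g g' : GalL L) :
    primeOf q L g = primeOf q L g' ↔ ∃ τ : Gq q, g' = locHom q L τ * g := by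
  refine ⟨exists_locHom_mul_eq q L g g', ?_⟩
  rintro ⟨τ, rfl⟩
  exact (primeOf_locHom_mul q L τ g).symm

/-- a prime `primeOf q L g` lies over `q` only -/
theorem eq_of_natCast_mem_primeOf (g : GalL L) {ℓ : ℕ} (hℓ : ℓ.Prime)
    (h : ((ℓ : ℕ) : 𝓞 L) ∈ (primeOf q L g).asIdeal) : ℓ = q := by
  by_contra hne
  rw [mem_primeOf_iff, coe_natCast, map_natCast] at h
  have hcop : Nat.Coprime ℓ q := (Nat.coprime_primes hℓ (Fact.out : q.Prime)).mpr hne
  have h1 : ‖((ℓ : ℕ) : PadicAlgCl q)‖ = 1 := by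
    rw [← map_natCast (algebraMap ℚ_[q] (PadicAlgCl q)), PadicAlgCl.norm_extends]
    exact (Padic.norm_natCast_eq_one_iff).mpr hcop.symm
  rw [h1] at h
  exact lt_irrefl 1 h

end Fermat.Agent.S55.FirstIneq27.Dict
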