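/-
S55 / 31-FIRST-INEQ (helper27), class-group step.  Mathlib only.

For a number field `F` there is a finite set `B` of primes such that every finitely supported
divisor is, outside `B`, the divisor of an element of `Fˣ`  (`Cl(𝓞_{F,B}) = 1`).
-/
import Mathlib

set_option autoImplicit false

namespace Fermat.Agent.S55.FirstIneq27.Class

open NumberField IsDedekindDomain WithZero

variable (F : Type*) [Field F] [NumberField F]

/-- An identity of integral ideals `(x) I = (y) J` gives `v_Q(y/x) = exp (-ord_Q I)` at every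
prime `Q` not dividing `J`. -/
theorem valuation_div_eq {Q : HeightOneSpectrum (𝓞 F)} {x y : 𝓞 F} (hx : x ≠ 0) (hy : y ≠ 0)
    {I J : Ideal (𝓞 F)} (hI : I ≠ ⊥) (hJ : J ≠ ⊥)
    (h : Ideal.span {x} * I = Ideal.span {y} * J) (hQJ : ¬ J ≤ Q.asIdeal) :
    Q.valuation F (algebraMap (𝓞 F) F y / algebraMap (𝓞 F) F x) =
      exp (-(multiplicity Q.asIdeal I : ℤ)) := by
  have hprime : Prime Q.asIdeal := Q.prime
  have hxI : Ideal.span {x} * I ≠ 0 :=
    mul_ne_zero (by rwa [Ne, Ideal.zero_eq_bot, Ideal.span_singleton_eq_bot]) hI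
  have hyJ : Ideal.span {y} * J ≠ 0 :=
    mul_ne_zero (by rwa [Ne, Ideal.zero_eq_bot, Ideal.span_singleton_eq_bot]) hJ
  have hnu : ¬ IsUnit Q.asIdeal := hprime.not_isUnit
  have h1 : multiplicity Q.asIdeal (Ideal.span {x} * I) =
      multiplicity Q.asIdeal (Ideal.span {x}) + multiplicity Q.asIdeal I :=
    multiplicity_mul hprime (FiniteMultiplicity.of_not_isUnit hnu hxI)
  have h2 : multiplicity Q.asIdeal (Ideal.span {y} * J) =
      multiplicity Q.asIdeal (Ideal.span {y}) + multiplicity Q.asIdeal J :=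
    multiplicity_mul hprime (FiniteMultiplicity.of_not_isUnit hnu hyJ)
  have h3 : multiplicity Q.asIdeal J = 0 := by
    rw [multiplicity_eq_zero, Ideal.dvd_iff_le]
    exact hQJ
  rw [h, h2, h3, add_zero] at h1
  rw [map_div₀, HeightOneSpectrum.valuation_of_algebraMap, HeightOneSpectrum.valuation_of_algebraMap,
    Q.intValuation_eq_exp_neg_multiplicity hx, Q.intValuation_eq_exp_neg_multiplicity hy, h1,
    ← exp_sub]
  congr 1
  push_cast
  ring

/-- the prime `P` has order `1` at `P` and `0` elsewhere -/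
theorem multiplicity_prime (Q P : HeightOneSpectrum (𝓞 F)) [Decidable (Q = P)] :
    multiplicity Q.asIdeal P.asIdeal = if Q = P then 1 else 0 := by
  split_ifs with h
  · subst h
    exact multiplicity_self
  · rw [multiplicity_eq_zero, Ideal.dvd_iff_le]
    intro hle
    exact h (HeightOneSpectrum.ext (P.isMaximal.eq_of_le Q.isPrime.ne_top hle).symm)

/-- the set of divisors which are principal outside `B` -/
def principalOutside (B : Set (HeightOneSpectrum (𝓞 F))) :
    AddSubgroup (HeightOneSpectrum (𝓞 F) →₀ ℤ) where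
  carrier := {n | ∃ x : Fˣ, ∀ Q, Q ∉ B → Q.valuation F (x : F) = exp (-(n Q))}
  zero_mem' := ⟨1, fun Q _ => by simp⟩
  add_mem' := by
    rintro n m ⟨x, hx⟩ ⟨y, hy⟩
    refine ⟨x * y, fun Q hQ => ?_⟩
    rw [Units.val_mul, map_mul, hx Q hQ, hy Q hQ, ← exp_add, Finsupp.add_apply]
    congr 1
    ring
  neg_mem' := by
    rintro n ⟨x, hx⟩
    refine ⟨x⁻¹, fun Q hQ => ?_⟩
    rw [Units.val_inv_eq_inv_val, map_inv₀, hx Q hQ, ← exp_neg, Finsupp.neg_apply]

theorem mem_principalOutside {B : Set (HeightOneSpectrum (𝓞 F))}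
    {n : HeightOneSpectrum (𝓞 F) →₀ ℤ} :
    n ∈ principalOutside F B ↔
      ∃ x : Fˣ, ∀ Q, Q ∉ B → Q.valuation F (x : F) = exp (-(n Q)) := Iff.rfl

open scoped nonZeroDivisors in
/-- **Class-group step.**  There is a finite set `B` of primes of `F` such that every divisor is
principal outside `B`. -/
theorem exists_finset_principalOutside :
    ∃ B : Finset (HeightOneSpectrum (𝓞 F)), ∀ n : HeightOneSpectrum (𝓞 F) →₀ ℤ,
      ∃ x : Fˣ, ∀ Q, Q ∉ B → Q.valuation F (x : F) = exp (-(n Q)) := by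
  classical
  -- integral representatives of the ideal classes
  choose rep hrep using ClassGroup.mk0_surjective (R := 𝓞 F)
  have hrep0 : ∀ c, (rep c : Ideal (𝓞 F)) ≠ ⊥ := fun c =>
    mem_nonZeroDivisors_iff_ne_zero.mp (rep c).2
  -- the bad primes: those dividing some representative
  have hfin : ∀ c, {Q : HeightOneSpectrum (𝓞 F) | (rep c : Ideal (𝓞 F)) ≤ Q.asIdeal}.Finite := by
    intro c
    have := Ideal.finite_factors (hrep0 c)
    refine this.subset fun Q hQ => ?_
    exact Ideal.dvd_iff_le.mpr hQ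
  set B : Finset (HeightOneSpectrum (𝓞 F)) :=
    Finset.univ.biUnion fun c => (hfin c).toFinset with hB
  have hBmem : ∀ Q, Q ∉ B → ∀ c, ¬ (rep c : Ideal (𝓞 F)) ≤ Q.asIdeal := by
    intro Q hQ c hle
    apply hQ
    rw [hB, Finset.mem_biUnion]
    exact ⟨c, Finset.mem_univ c, (hfin c).mem_toFinset.mpr hle⟩
  refine ⟨B, fun n => ?_⟩
  suffices hn : n ∈ principalOutside F (B : Set (HeightOneSpectrum (𝓞 F))) by
    obtain ⟨x, hx⟩ := hn
    exact ⟨x, fun Q hQ => hx Q (by simpa using hQ)⟩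
  -- it suffices to treat a single prime
  have hsingle : ∀ P : HeightOneSpectrum (𝓞 F),
      Finsupp.single P (1 : ℤ) ∈ principalOutside F (B : Set (HeightOneSpectrum (𝓞 F))) := by
    intro P
    have hP0 : P.asIdeal ∈ (Ideal (𝓞 F))⁰ := mem_nonZeroDivisors_of_ne_zero P.ne_bot
    have hcls := hrep (ClassGroup.mk0 ⟨P.asIdeal, hP0⟩)
    obtain ⟨x, y, hx, hy, hxy⟩ := ClassGroup.mk0_eq_mk0_iff.mp hcls.symm
    have hx' : algebraMap (𝓞 F) F x ≠ 0 := by
      rwa [Ne, FaithfulSMul.algebraMap_eq_zero_iff]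
    have hy' : algebraMap (𝓞 F) F y ≠ 0 := by
      rwa [Ne, FaithfulSMul.algebraMap_eq_zero_iff]
    refine ⟨Units.mk0 _ (div_ne_zero hy' hx'), fun Q hQ => ?_⟩
    rw [Units.val_mk0, valuation_div_eq F hx hy P.ne_bot (hrep0 _) hxy (hBmem Q (by simpa using hQ) _),
      multiplicity_prime F Q P, Finsupp.single_apply]
    by_cases h : Q = P
    · rw [if_pos h, if_pos h.symm]; rfl
    · rw [if_neg h, if_neg (fun h' => h h'.symm)]; rfl
  refine Finsupp.induction_linear n (AddSubgroup.zero_mem _) (fun f g hf hg => AddSubgroup.add_mem _ hf hg)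
    fun P k => ?_
  have : Finsupp.single P k = k • Finsupp.single P (1 : ℤ) := by
    rw [Finsupp.smul_single, smul_eq_mul, mul_one]
  rw [this]
  exact AddSubgroup.zsmul_mem _ (hsingle P) k

/-- the rational prime below a prime of `𝓞 F` -/
theorem exists_prime_natCast_mem (P : HeightOneSpectrum (𝓞 F)) :
    ∃ ℓ : Nat.Primes, ((ℓ : ℕ) : 𝓞 F) ∈ P.asIdeal := by
  have : P.asIdeal.IsMaximal := P.isMaximal
  let _ := Ideal.Quotient.field P.asIdeal
  have : Finite (𝓞 F ⧸ P.asIdeal) := P.asIdeal.finiteQuotientOfFreeOfNeBot P.ne_bot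
  obtain ⟨ℓ, hℓ⟩ := CharP.exists (𝓞 F ⧸ P.asIdeal)
  have hprime : ℓ.Prime := CharP.char_is_prime (𝓞 F ⧸ P.asIdeal) ℓ
  refine ⟨⟨ℓ, hprime⟩, ?_⟩
  rw [← Ideal.Quotient.eq_zero_iff_mem, map_natCast]
  exact CharP.cast_eq_zero _ _

/-- **Class-group step, rational form.**  Every finite set `S` of rational primes is contained
in a finite set `T` such that every divisor of `F` is principal outside the primes above `T`. -/
theorem exists_finset_trivial_class (S : Finset Nat.Primes) :
    ∃ T : Finset Nat.Primes, S ⊆ T ∧ ∀ n : HeightOneSpectrum (𝓞 F) →₀ ℤ, ∃ x : Fˣ,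
      ∀ P : HeightOneSpectrum (𝓞 F), (∀ ℓ ∈ T, ((ℓ : ℕ) : 𝓞 F) ∉ P.asIdeal) →
        P.valuation F (x : F) = exp (-(n P)) := by
  classical
  obtain ⟨B, hB⟩ := exists_finset_principalOutside F
  choose ℓ hℓ using exists_prime_natCast_mem F
  refine ⟨S ∪ B.image ℓ, Finset.subset_union_left, fun n => ?_⟩
  obtain ⟨x, hx⟩ := hB n
  refine ⟨x, fun P hP => hx P fun hPB => ?_⟩
  exact hP (ℓ P) (Finset.mem_union_right _ (Finset.mem_image_of_mem ℓ hPB)) (hℓ P)

end Fermat.Agent.S55.FirstIneq27.Class
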