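/-
S55 / 31-FIRST-INEQ (helper27), MAIN part 4 (= input (L3)): the kernel pair of the layer of
`beta T h : Lˣ → I^{S ∪ T}` IS helper1's `(H ⧸ N)`-module of `N`-invariant `T`-units of `L`
(`SUnit1.LayerSUnits`): same Herbrand quotient.  Dictionary: `x ∈ Lˣ` is a unit at all conjugates
above all `ℓ ∉ T` iff all `P`-adic valuations of `x`, `P` a prime of `𝓞 L` not above `T`, are `1`.
-/
import Mathlib
import Fermat.Agent.S55.FirstIneq27.Main
import Fermat.Agent.S55.FirstIneq27.Dict
import Fermat.Agent.S55.FirstIneq27.Class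
import Fermat.Agent.S55.SUnit1.LayerSUnits

set_option autoImplicit false

namespace Fermat.Agent.S55.FirstIneq27.UnitsIso

open CategoryTheory NumberField IsDedekindDomain
open Fermat.Agent.S55.Idele73.Basic Fermat.Agent.S55.IdeleVal44
open Fermat.Agent.S55.Herbrand54 Fermat.Agent.S55.HerbrandCyclic54 Fermat.Agent.S55.HerbrandHcyc54
open Fermat.Agent.S55.SUnit1.HomSES Fermat.Agent.S55.Adapt77.HcycGlue
open Fermat.Agent.S55.FirstIneq27.Split Fermat.Agent.S55.FirstIneq27.Layer
open Fermat.Agent.S55.FirstIneq27.LayerProd Fermat.Agent.S55.FirstIneq27.Main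
open Fermat.Agent.S55.SUnit1.LayerSUnits Fermat.Agent.S55.SUnit1.OverNat
open Fermat.Agent.S55.SUnit1.LayerRho Fermat.Agent.S55.SUnit1.QSUnits
open Fermat.Agent.S55.SUnit19.SUnitRank

attribute [local instance] factPrimes44

variable (L : IntermediateField ℚ Qbar) [Normal ℚ L] [FiniteDimensional ℚ L]

/-- **the `T`-unit dictionary**: Mathlib's `T`-units of `L` (`T` a finite set of rational primes)
are the elements which are units at all conjugates above all `ℓ ∉ T`. -/
theorem mem_sUnits_iff (T : Finset Nat.Primes) (u : Lˣ) :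
    u ∈ sUnits L (primesOverNat L T) ↔ ∀ ℓ : Nat.Primes, ℓ ∉ T → IsUnitAt L ℓ.1 u := by
  rw [mem_sUnits_primesOverNat]
  constructor
  · intro hu ℓ hℓ g
    have hP : ∀ ℓ' ∈ T, (((ℓ' : ℕ) : 𝓞 L)) ∉ (Dict.primeOf ℓ.1 L g).asIdeal := by
      intro ℓ' hℓ' hm
      have h1 : (ℓ' : ℕ) = ℓ.1 := Dict.eq_of_natCast_mem_primeOf ℓ.1 L g ℓ'.2 hm
      exact hℓ ((Subtype.ext h1 : ℓ' = ℓ) ▸ hℓ')
    have h2 := (Dict.valuation_primeOf_eq_one_iff ℓ.1 L g (u : L)).mp (hu _ hP)
    exact NNReal.eq h2
  · intro hu P hP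
    obtain ⟨ℓ, hℓ⟩ := Class.exists_prime_natCast_mem L P
    have hℓT : ℓ ∉ T := fun hm => hP ℓ hm hℓ
    obtain ⟨g, rfl⟩ := Dict.exists_primeOf_eq ℓ.1 L P hℓ
    rw [Dict.valuation_primeOf_eq_one_iff]
    exact congrArg NNReal.toReal (hu ℓ hℓT g)

variable {L}
variable {S : Finset Nat.Primes} (T : Finset Nat.Primes) (h : UnrOutside L S)

omit [FiniteDimensional ℚ L] in
/-- the kernel of `beta` in terms of `IsUnitAt` -/
theorem beta_eq_zero_iff_isUnitAt (x : Lx L) :
    (beta T h).hom x = 0 ↔ ∀ ℓ : Nat.Primes, ℓ ∉ S → ℓ ∉ T →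
      IsUnitAt L ℓ.1 ((Rep.toAdditive x).toMul : Lˣ) := by
  constructor
  · intro h0 ℓ hℓS hℓT
    rw [← divAt_eq_zero_iff h ⟨ℓ, hℓS⟩, ← idealMap_hom_apply]
    have := congrArg (fun y : (IO L S T).V =>
      dsRep.toDS (subFam (Zfam L S) (fun ℓ => ¬ inT S T ℓ)) y ⟨⟨ℓ, hℓS⟩, hℓT⟩) h0
    exact this
  · intro h0
    apply dsRep.ext
    intro i
    rw [beta_apply, res_apply, idealMap_hom_apply, dsRep.toDS_zero]
    exact (divAt_eq_zero_iff h i.1 x).mpr (h0 i.1.1 i.1.2 i.2)

/-- the kernel of `beta` is the group of `T`-units (`S ⊆ T`) -/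
theorem beta_eq_zero_iff (hST : S ⊆ T) (x : Lx L) :
    (beta T h).hom x = 0 ↔
      ((Rep.toAdditive x).toMul : Lˣ) ∈ sUnits L (primesOverNat L T) := by
  rw [beta_eq_zero_iff_isUnitAt, mem_sUnits_iff]
  constructor
  · intro h0 ℓ hℓ
    exact h0 ℓ (fun hS => hℓ (hST hS)) hℓ
  · intro h0 ℓ _ hℓ
    exact h0 ℓ hℓ

/-! ### the isomorphism of Herbrand pairs -/

set_option linter.unusedSectionVars false

variable (H : Subgroup (GalL L)) (N : Subgroup H) [N.Normal] [Fintype (H ⧸ N)] (g : H ⧸ N)

/-- the kernel of the layer of `beta` -/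
noncomputable abbrev kerB : AddSubgroup (layer (Lx L) H N).V := (layerHom (beta T h) H N g).toFun.ker

theorem mem_kerB_iff (x : (layer (Lx L) H N).V) : x ∈ kerB T h H N g ↔ (beta T h).hom x.1 = 0 := by
  constructor
  · intro hx
    have := congrArg Subtype.val (show (layerHom (beta T h) H N g).toFun x = 0 from hx)
    exact this
  · intro hx
    show (layerHom (beta T h) H N g).toFun x = 0
    apply Subtype.ext
    exact hx

/-- stability of the kernel -/
theorem kerB_stable (τ : H ⧸ N) (x : (layer (Lx L) H N).V) (hx : x ∈ kerB T h H N g) :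
    repRhoM (layer (Lx L) H N) τ x ∈ kerB T h H N g := by
  show (layerHom (beta T h) H N g).toFun ((layer (Lx L) H N).ρ τ x) = 0
  have h1 : (layerHom (beta T h) H N g).toFun ((layer (Lx L) H N).ρ τ x) =
      (layer (IO L S T) H N).ρ τ ((layerHom (beta T h) H N g).toFun x) :=
    Rep.hom_comm_apply (layerRepHom (beta T h) H N) τ x
  rw [h1, show (layerHom (beta T h) H N g).toFun x = 0 from hx, map_zero]

/-- the action on the kernel -/
noncomputable abbrev rhoKer : H ⧸ N →* AddMonoid.End (kerB T h H N g) :=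
  rhoRestrict (repRhoM (layer (Lx L) H N)) (kerB T h H N g) (kerB_stable T h H N g)

variable (hST : S ⊆ T)

/-- the underlying element of `Lˣ` -/
noncomputable def uOf (x : (layer (Lx L) H N).V) : Lˣ :=
  (Rep.toAdditive (M := GalL L) (G := Lˣ) x.1).toMul

omit [FiniteDimensional ℚ L] in
theorem uOf_add (x y : (layer (Lx L) H N).V) : uOf H N (x + y) = uOf H N x * uOf H N y := rfl

omit [FiniteDimensional ℚ L] in
theorem uOf_zero : uOf H N (0 : (layer (Lx L) H N).V) = 1 := rfl

include hST in
theorem uOf_mem (x : kerB T h H N g) : uOf H N x.1 ∈ sUnits L (primesOverNat L T) :=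
  (beta_eq_zero_iff T h hST x.1.1).mp ((mem_kerB_iff T h H N g x.1).mp x.2)

/-- kernel elements as `T`-units -/
noncomputable def jMap : kerB T h H N g →+ Additive ↥(sUnits L (primesOverNat L T)) where
  toFun x := Additive.ofMul ⟨uOf H N x.1, uOf_mem T h H N g hST x⟩
  map_zero' := by
    apply Additive.toMul.injective
    apply Subtype.ext
    exact uOf_zero H N
  map_add' x y := by
    apply Additive.toMul.injective
    apply Subtype.ext
    exact uOf_add H N x.1 y.1

theorem jMap_val (x : kerB T h H N g) :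
    (((Additive.toMul (jMap T h H N g hST x) : ↥(sUnits L (primesOverNat L T))) : Lˣ)) =
      uOf H N x.1 := rfl

omit [FiniteDimensional ℚ L] in
theorem uOf_injective : Function.Injective (uOf (L := L) H N) := by
  intro x y hxy
  apply Subtype.ext
  have h2 : Rep.toAdditive (M := GalL L) (G := Lˣ) x.1 =
      Rep.toAdditive (M := GalL L) (G := Lˣ) y.1 :=
    Additive.toMul.injective hxy
  exact (Rep.toAdditive (M := GalL L) (G := Lˣ)).injective h2

theorem jMap_injective : Function.Injective (jMap T h H N g hST) := by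
  intro x y hxy
  have h1 := congrArg (fun z => ((Additive.toMul z : ↥(sUnits L (primesOverNat L T))) : Lˣ)) hxy
  exact Subtype.ext (uOf_injective H N h1)

omit [FiniteDimensional ℚ L] in
theorem uOf_rho (σ : H) (x : (layer (Lx L) H N).V) :
    ((uOf H N ((layer (Lx L) H N).ρ (σ : H ⧸ N) x) : Lˣ) : L) = σ • ((uOf H N x : Lˣ) : L) := rfl

theorem jMap_equivariant (σ : H) (x : kerB T h H N g) :
    jMap T h H N g hST (rhoKer T h H N g (σ : H ⧸ N) x) =
      rhoL (L := L) (H := H) T σ (jMap T h H N g hST x) := by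
  apply congrArg Additive.ofMul
  apply Subtype.ext
  apply Units.ext
  exact uOf_rho H N σ x.1

theorem range_jMap : (jMap T h H N g hST).range = invSub (rhoL (L := L) (H := H) T) N := by
  ext v
  rw [mem_invSub]
  constructor
  · rintro ⟨x, rfl⟩ n hn
    have e := jMap_equivariant T h H N g hST n x
    have h2 : ((n : H) : H ⧸ N) = 1 := (QuotientGroup.eq_one_iff n).2 hn
    have h3 : rhoKer T h H N g ((n : H) : H ⧸ N) x = x := by
      apply Subtype.ext
      apply Subtype.ext
      exact layer_fixed H N x.1 ⟨n, hn⟩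
    exact e.symm.trans (congrArg (jMap T h H N g hST) h3)
  · intro hv
    set u : ↥(sUnits L (primesOverNat L T)) := Additive.toMul v with hu
    let y : (Lx L).V := (Rep.toAdditive (M := GalL L) (G := Lˣ)).symm (Additive.ofMul (u : Lˣ))
    have hy : ∀ n : N, (Lx L).ρ ((n : H) : GalL L) y = y := by
      intro n
      have h1 := hv n.1 n.2
      have h2 : sUnitSmul H (primesOverNat L T) (primesOverNat_stable T) n.1 u = u :=
        congrArg Additive.toMul h1
      have h3 : (n.1 : H) • (((u : Lˣ)) : L) = ((u : Lˣ) : L) :=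
        congrArg (fun z : ↥(sUnits L (primesOverNat L T)) => ((z : Lˣ) : L)) h2
      apply (Rep.toAdditive (M := GalL L) (G := Lˣ)).injective
      apply Additive.toMul.injective
      apply Units.ext
      exact h3
    have hker : layerMk H N y hy ∈ kerB T h H N g := by
      rw [mem_kerB_iff]
      exact (beta_eq_zero_iff T h hST y).mpr u.2
    refine ⟨⟨layerMk H N y hy, hker⟩, ?_⟩
    apply Additive.toMul.injective
    apply Subtype.ext
    rfl

include hST in
/-- (L3), definedness -/
theorem isDefined_kerPair_iff :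
    (kerPair (layerHom (beta T h) H N g)).IsDefined ↔
      (cyclicPair (layerRho (rhoL (L := L) (H := H) T) N) g).IsDefined := by
  have I1 := isoRestrict (repRhoM (layer (Lx L) H N)) g (kerB T h H N g) (kerB_stable T h H N g)
    (f_mem_ker (layerHom (beta T h) H N g)) (g_mem_ker (layerHom (beta T h) H N g))
  have I2 := layerIsoOfRange (rhoL (L := L) (H := H) T) N (rhoKer T h H N g) (jMap T h H N g hST)
    (jMap_injective T h H N g hST) (jMap_equivariant T h H N g hST) (range_jMap T h H N g hST) g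
  exact I1.isDefined_iff.symm.trans I2.isDefined_iff

include hST in
/-- **(L3)** the kernel pair of the layer of `beta` has the Herbrand quotient of helper1's module
of `N`-invariant `T`-units. -/
theorem q_kerPair_eq :
    (kerPair (layerHom (beta T h) H N g)).q =
      (cyclicPair (layerRho (rhoL (L := L) (H := H) T) N) g).q := by
  have I1 := isoRestrict (repRhoM (layer (Lx L) H N)) g (kerB T h H N g) (kerB_stable T h H N g)
    (f_mem_ker (layerHom (beta T h) H N g)) (g_mem_ker (layerHom (beta T h) H N g))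
  have I2 := layerIsoOfRange (rhoL (L := L) (H := H) T) N (rhoKer T h H N g) (jMap T h H N g hST)
    (jMap_injective T h H N g hST) (jMap_equivariant T h H N g hST) (range_jMap T h H N g hST) g
  exact I1.q_eq.symm.trans I2.q_eq

end Fermat.Agent.S55.FirstIneq27.UnitsIso
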